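/-
GATE-B / B10′ L-route, leaf (L2-c) (helper15): **the transfer to the big group commutes with a
restricted system between two groups** — the `kerSys₂` version of helper2's
`GB/B3/KerSys.cores_kerSys_op`.

`S : CosetSys emb Γ₁ Γ₂`, `χ₁ : Γ₁ →* Δ`, `χ₂ : Γ₂ →* Δ` compatible (`Compat₂`), `r₁`, `r₂`
sections of `χ₁`, `χ₂`.  Then

  `cores_{χ₂} ∘ (kerSys₂ S).op = S.op ∘ cores_{χ₁}`     (`cores_kerSys₂_op`).

Instances: the `p`-degeneracy maps `coresq`, `coresDq` of helper83 (GB/B7/UqSqSys) at level `Γ_H`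
against `GM.B.cores`, `GM.B.coresD` at level `Γ₀` (`coresH_coresq`, `coresH_coresDq`).
-/
import Mathlib
import Fermat.Agent.GB.B7.UqSqSys

set_option autoImplicit false

open scoped MatrixGroups
open CongruenceSubgroup Matrix Matrix.SpecialLinearGroup
open P2MW.S_ModularForm_heckeT_slash_eq_self_of_mem_Gamma0.ModularForm.HeckeSlashInvariance
open Fermat.Agent.S16_helper49 Fermat.Agent.GM.B Fermat.Agent.GM.EisClass
open Fermat.Agent.GB.B3 Fermat.Agent.GB.B3.EisGamma0 Fermat.Agent.GB.B3.GamH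
open Fermat.Agent.GB.B4.Twist.KerSys2 Fermat.Agent.GB.B7.UqSq

namespace Fermat.Agent.GB.B10.L2

section Abstract

variable {H G : Type*} [Group H] [Group G] {emb : H →* G} {Γ₁ Γ₂ : Subgroup H}
  {Δ : Type} [Group Δ] [Fintype Δ]
  (χ₁ : Γ₁ →* Δ) (χ₂ : Γ₂ →* Δ) (r₁ : Δ → Γ₁) (hr₁ : ∀ δ, χ₁ (r₁ δ) = δ)
  (r₂ : Δ → Γ₂) (hr₂ : ∀ δ, χ₂ (r₂ δ) = δ)

/-- the reindexing `(δ, j) ↦ ((σ (r₂ δ))⁻¹ j, δ)` -/
def coresEquiv₂ (S : CosetSys emb Γ₁ Γ₂) : Δ × S.ι ≃ S.ι × Δ where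
  toFun p := ((S.σ (r₂ p.1)).symm p.2, p.1)
  invFun q := (q.2, S.σ (r₂ q.2) q.1)
  left_inv p := by simp
  right_inv q := by simp

/-- **the transfer commutes with the restricted system between two groups** -/
theorem cores_kerSys₂_op (hemb : Function.Injective emb) (S : CosetSys emb Γ₁ Γ₂)
    (h : Compat₂ S χ₁ χ₂) {A : Type*} [AddCommGroup A] (ψ : Additive (kerSub χ₁) →+ A) :
    (coresK χ₂ r₂ hr₂ emb).op A ((kerSys₂ S χ₁ χ₂ h).op A ψ)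
      = S.op A ((coresK χ₁ r₁ hr₁ emb).op A ψ) := by
  rw [← CosetSys.op_comp, ← CosetSys.op_comp]
  refine CosetSys.op_eq_of_equiv ((coresK χ₁ r₁ hr₁ emb).comp S)
    ((kerSys₂ S χ₁ χ₂ h).comp (coresK χ₂ r₂ hr₂ emb)) hemb (coresEquiv₂ r₂ S)
    1 (fun x => by rw [one_mul, mul_one])
    (fun (p : Δ × S.ι) => kerMk χ₁ (S.c (r₂ p.1) ((S.σ (r₂ p.1)).symm p.2) * (r₁ p.1)⁻¹) (by
      rw [map_mul, h, map_inv, hr₁ p.1, hr₂ p.1, mul_inv_cancel])) ?_ ?_ ψ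
  · rintro ⟨(δ : Δ), (j : S.ι)⟩
    show S.a ((S.σ (r₂ δ)).symm j) * emb ((r₂ δ : Γ₂) : H)
      = 1 * emb (((S.c (r₂ δ) ((S.σ (r₂ δ)).symm j) * (r₁ δ)⁻¹ : Γ₁)) : H)
        * (emb ((r₁ δ : Γ₁) : H) * S.a j)
    rw [one_mul, S.rel (r₂ δ) ((S.σ (r₂ δ)).symm j), Equiv.apply_symm_apply, ← mul_assoc, ← map_mul,
      ← Subgroup.coe_mul, inv_mul_cancel_right]
  · rintro g ⟨(δ : Δ), (j : S.ι)⟩
    show (S.σ (kerIncl χ₂ (coresC χ₂ r₂ hr₂ g δ)) ((S.σ (r₂ δ)).symm j), δ * χ₂ g)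
      = ((S.σ (r₂ (δ * χ₁ (S.c g j)))).symm (S.σ g j), δ * χ₁ (S.c g j))
    rw [h, kerIncl_coresC, S.hσ, S.hσ, Equiv.apply_symm_apply, sigma_inv_eq_symm]

end Abstract

/-! ### the `p`-degeneracy maps and the descent `Γ_H → Γ₀` -/

section Inst

variable {N q : ℕ} [Fact q.Prime] {Δ : Type} [CommGroup Δ] [Fintype Δ] (θ' : (ZMod N)ˣ →* Δ)
  (hqN : ¬ q ∣ N)
  (rep : Δ → Gamma0 N) (hrep : ∀ δ, chi θ' (rep δ) = δ)
  (repq : Δ → Gamma0 (N * q)) (hrepq : ∀ δ, chi (thQ θ' q) (repq δ) = δ)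
  {A : Type*} [AddCommGroup A]

/-- **`cores_{Γ_H → Γ₀} ∘ α_*^{Γ_H} = α_*^{Γ₀} ∘ cores_{Γ_H → Γ₀}`** -/
theorem coresH_coresq (ψ : Additive (GammaH (thQ θ' q)) →+ A) :
    coresH θ' rep hrep A (coresq θ' hqN A ψ)
      = cores A hqN (coresH (thQ θ' q) repq hrepq A ψ) :=
  cores_kerSys₂_op (chi (thQ θ' q)) (chi θ') repq hrepq rep hrep embR_injective
    (coresSys hqN (bez hqN).1 (bez hqN).2 (bez_spec hqN))
    (compat_coresSys θ' hqN (bez hqN).1 (bez hqN).2 (bez_spec hqN)) ψ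

/-- **`cores_{Γ_H → Γ₀} ∘ β_*^{Γ_H} = β_*^{Γ₀} ∘ cores_{Γ_H → Γ₀}`** -/
theorem coresH_coresDq (ψ : Additive (GammaH (thQ θ' q)) →+ A) :
    coresH θ' rep hrep A (coresDq θ' hqN A ψ)
      = coresD A hqN (coresH (thQ θ' q) repq hrepq A ψ) :=
  cores_kerSys₂_op (chi (thQ θ' q)) (chi θ') repq hrepq rep hrep embR_injective
    (coresDSys hqN (bez hqN).1 (bez hqN).2 (bez_spec hqN))
    (compat_coresDSys θ' hqN (bez hqN).1 (bez hqN).2 (bez_spec hqN)) ψ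

end Inst

end Fermat.Agent.GB.B10.L2
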