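/-
GATE-B / B10′ L-route, leaf (L2) (helper15): **bookkeeping for propositionally equal subgroups**.

The groups `Γ_H` of helper2 are subgroups of `SL(2, ℤ)`; two spellings of the same level
(`N q r` / `N r q`) give propositionally equal subgroups.  To move coset systems and classes along
such equalities (in fact along inclusions):

* `castSrc S h : CosetSys emb Γ₁' Γ₂` for `S : CosetSys emb Γ₁ Γ₂`, `h : Γ₁ ≤ Γ₁'` (same
  representatives, same permutations, cocycle composed with the inclusion);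
* `resIncl h A : Hom(Γ, A) → Hom(Γ', A)` for `h : Γ' ≤ Γ`;
* `op_castSrc` : `(castSrc S h).op φ = S.op (resIncl h φ)`; `castSrc_distinct`;
* `coresK_op_indep` : helper2's transfer `coresK χ r hr` does not depend on the section `r`.
-/
import Mathlib
import Fermat.Agent.GB.B3.KerSys

set_option autoImplicit false

namespace Fermat.Agent.GB.B10.L2.Cast

open Fermat.Agent.GM.B Fermat.Agent.GM.B.CosetSys Fermat.Agent.GB.B3

variable {H G : Type*} [Group H] [Group G] {emb : H →* G}

section CastSrc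

variable {Γ₁ Γ₁' Γ₂ : Subgroup H}

/-- the same coset system with a larger source group -/
def castSrc (S : CosetSys emb Γ₁ Γ₂) (h : Γ₁ ≤ Γ₁') : CosetSys emb Γ₁' Γ₂ where
  ι := S.ι
  a := S.a
  σ := S.σ
  c g i := Subgroup.inclusion h (S.c g i)
  rel g i := S.rel g i
  hσ := S.hσ
  hc g g' i := by rw [S.hc, map_mul]

variable (S : CosetSys emb Γ₁ Γ₂) (h : Γ₁ ≤ Γ₁')

theorem castSrc_a (i : S.ι) : (castSrc S h).a i = S.a i := rfl

theorem castSrc_σ (g : Γ₂) (i : S.ι) : (castSrc S h).σ g i = S.σ g i := rfl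

theorem coe_castSrc_c (g : Γ₂) (i : S.ι) :
    (((castSrc S h).c g i : Γ₁') : H) = ((S.c g i : Γ₁) : H) := rfl

/-- distinctness is inherited when the two groups coincide -/
theorem castSrc_distinct (h' : Γ₁' ≤ Γ₁) (hd : S.Distinct) : (castSrc S h).Distinct :=
  fun i j γ hγ => hd i j ⟨(γ : H), h' γ.2⟩ hγ

end CastSrc

section ResIncl

variable {Γ Γ' Γ'' : Subgroup H}

/-- restriction of classes along an inclusion of subgroups -/
def resIncl (h : Γ' ≤ Γ) (A : Type*) [AddCommGroup A] :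
    (Additive Γ →+ A) →+ (Additive Γ' →+ A) where
  toFun φ := φ.comp (MonoidHom.toAdditive (Subgroup.inclusion h))
  map_zero' := rfl
  map_add' _ _ := rfl

variable {A : Type*} [AddCommGroup A]

theorem resIncl_apply (h : Γ' ≤ Γ) (φ : Additive Γ →+ A) (g : Γ') :
    resIncl h A φ (Additive.ofMul g) = φ (Additive.ofMul (Subgroup.inclusion h g)) := rfl

theorem resIncl_refl (h : Γ ≤ Γ) (φ : Additive Γ →+ A) : resIncl h A φ = φ := by
  refine AddMonoidHom.ext fun g => ?_
  obtain ⟨g, rfl⟩ : ∃ g' : Γ, Additive.ofMul g' = g := ⟨Additive.toMul g, rfl⟩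
  rw [resIncl_apply]
  rfl

theorem resIncl_resIncl (h : Γ' ≤ Γ) (h' : Γ'' ≤ Γ') (φ : Additive Γ →+ A) :
    resIncl h' A (resIncl h A φ) = resIncl (h'.trans h) A φ := rfl

theorem resIncl_smul {K : Type*} [Monoid K] [DistribMulAction K A] (h : Γ' ≤ Γ) (c : K)
    (φ : Additive Γ →+ A) : resIncl h A (c • φ) = c • resIncl h A φ := rfl

theorem resIncl_eq_zero_iff (h : Γ' ≤ Γ) (h' : Γ ≤ Γ') (φ : Additive Γ →+ A) :
    resIncl h A φ = 0 ↔ φ = 0 := by
  constructor
  · intro h0
    have h1 : resIncl h' A (resIncl h A φ) = 0 := by rw [h0, map_zero]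
    rw [resIncl_resIncl, resIncl_refl] at h1
    exact h1
  · intro h0
    rw [h0, map_zero]

variable {Γ₁ Γ₁' Γ₂ : Subgroup H}

/-- the operator of the system with enlarged source -/
theorem op_castSrc (S : CosetSys emb Γ₁ Γ₂) (h : Γ₁ ≤ Γ₁') (φ : Additive Γ₁' →+ A) :
    (castSrc S h).op A φ = S.op A (resIncl h A φ) := by
  refine AddMonoidHom.ext fun g => ?_
  obtain ⟨g, rfl⟩ : ∃ g' : Γ₂, Additive.ofMul g' = g := ⟨Additive.toMul g, rfl⟩
  rw [op_apply, op_apply]
  rfl

end ResIncl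

section Indep

variable {Γ : Subgroup H} {Δ : Type} [Group Δ] [Fintype Δ] (χ : Γ →* Δ)
  (r : Δ → Γ) (hr : ∀ δ, χ (r δ) = δ) (r' : Δ → Γ) (hr' : ∀ δ, χ (r' δ) = δ)

/-- **the transfer does not depend on the section** -/
theorem coresK_op_indep (hemb : Function.Injective emb) {A : Type*} [AddCommGroup A]
    (ψ : Additive (kerSub χ) →+ A) :
    (coresK χ r' hr' emb).op A ψ = (coresK χ r hr emb).op A ψ := by
  refine CosetSys.op_eq_of_equiv (coresK χ r hr emb) (coresK χ r' hr' emb) hemb (Equiv.refl Δ) 1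
    (fun x => by rw [one_mul, mul_one])
    (fun (δ : Δ) => kerMk χ (r' δ * (r δ)⁻¹)
      (by rw [map_mul, map_inv, hr δ, hr' δ, mul_inv_cancel])) ?_ ?_ ψ
  · intro (δ : Δ)
    show emb ((r' δ : Γ) : H) = 1 * emb (((r' δ * (r δ)⁻¹ : Γ)) : H) * emb ((r δ : Γ) : H)
    rw [one_mul, ← map_mul, ← Subgroup.coe_mul, inv_mul_cancel_right]
  · intro g δ
    rfl

end Indep

end Fermat.Agent.GB.B10.L2.Cast
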