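/-
GATE-B / B10′ L-route, leaf (L2-ψ), abstract half (helper15): **a transfer commutes with a
weighted coset operator** (four groups).

`Γa ≤ Γc`-type situation: `R : CosetSys emb Γa Γb`, `R' : CosetSys emb Γc Γd` two weighted systems
(the character twist at two levels), `C : CosetSys emb Γa Γc`, `C' : CosetSys emb Γb Γd` two
transfer-type systems whose representatives are `D * emb (s x)` with `s x` IN THE TARGET GROUP
(`s x₀ = 1` for one index) and `D` one fixed element with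
`R.a i * D = D * emb (u i) * R'.a (μ i)`, `u i ∈ Γc`.  If the
cosets of the two composite systems are pairwise distinct and the index sets have the same size,

  `C'.op (wop R w φ) = wop R' w' (C.op φ)`   whenever `w' (μ i) = w i`     (`transfer_wop`).

The matching of the cosets is AUTOMATIC (it only uses the relations of `R'` and `C`): no matrix
computation.  `comp_distinct_of` : distinctness of `C.comp R'` from that of the factors;
`comp_distinct_of_key` : distinctness of `R.comp C'`.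
-/
import Mathlib
import Fermat.Agent.GB.B4.Twist.HeckeAbs
import Fermat.Agent.GB.B4.Twist.WSys2

set_option autoImplicit false

namespace Fermat.Agent.GB.B10.L2.Square

open Fermat.Agent.GM.B Fermat.Agent.GM.B.CosetSys Fermat.Agent.GB.B4.Twist.WSys
open Fermat.Agent.GB.B4.Twist.HeckeAbs

variable {H G : Type*} [Group H] [Group G] {emb : H →* G} {Γa Γb Γc Γd : Subgroup H}

/-- distinctness of the composite `C.comp R'` from the distinctness of the factors, when the
representatives of `C` are `D * emb (s x)`, `s x ∈ Γc`, and `D` conjugates `Γa` into `Γc` -/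
theorem comp_distinct_of (hemb : Function.Injective emb) (C : CosetSys emb Γa Γc)
    (R' : CosetSys emb Γc Γd) (D : G) (s : C.ι → Γc)
    (hCa : ∀ x, C.a x = D * emb ((s x : Γc) : H))
    (hκ : ∀ γ : Γa, ∃ γ' : Γc, emb ((γ : Γa) : H) * D = D * emb ((γ' : Γc) : H))
    (hC : C.Distinct) (hR' : R'.Distinct) : (C.comp R').Distinct := by
  rintro ⟨x, j⟩ ⟨x₂, j₂⟩ γ h
  have h1 : C.a x * R'.a j = emb ((γ : Γa) : H) * (C.a x₂ * R'.a j₂) := h
  obtain ⟨γ', hγ'⟩ := hκ γ
  rw [hCa, hCa, ← mul_assoc, ← mul_assoc, hγ'] at h1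
  have h2 : emb ((s x : Γc) : H) * R'.a j
      = emb ((γ' : Γc) : H) * emb ((s x₂ : Γc) : H) * R'.a j₂ := by
    apply mul_left_cancel (a := D)
    rw [← mul_assoc, h1]
    group
  have h3 : R'.a j = emb ((((s x)⁻¹ * γ' * s x₂ : Γc)) : H) * R'.a j₂ := by
    rw [Subgroup.coe_mul, Subgroup.coe_mul, Subgroup.coe_inv, map_mul, map_mul, map_inv,
      mul_assoc, mul_assoc, eq_inv_mul_iff_mul_eq, ← mul_assoc]
    exact h2
  have hj : j = j₂ := hR' j j₂ _ h3
  subst hj
  have h4 : emb ((((s x)⁻¹ * γ' * s x₂ : Γc)) : H) = 1 := by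
    have := h3
    nth_rewrite 1 [← one_mul (R'.a j)] at this
    exact (mul_right_cancel this).symm
  have h5 : (((s x)⁻¹ * γ' * s x₂ : Γc) : H) = 1 := hemb (by rw [h4, map_one])
  have h6 : (s x : Γc) = γ' * s x₂ := by
    have h7 : ((s x)⁻¹ * γ' * s x₂ : Γc) = 1 := Subtype.ext h5
    have : s x * ((s x)⁻¹ * γ' * s x₂) = s x * 1 := by rw [h7]
    rw [mul_one] at this
    rw [← this]
    group
  have hx : x = x₂ := by
    refine hC x x₂ γ ?_
    rw [hCa, hCa, h6, Subgroup.coe_mul, map_mul, ← mul_assoc, ← mul_assoc, hγ']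
  subst hx
  rfl

/-- distinctness of the composite `R.comp C'` when the representatives of `C'` are
`D * emb (s' x)`, `s' x ∈ Γd`, under the KEY property: a relation
`R.a i * D * emb h = emb κ * R.a i₂ * D` with `κ ∈ Γa`, `h ∈ Γd` forces `D h D⁻¹ ∈ Γb` -/
theorem comp_distinct_of_key (R : CosetSys emb Γa Γb) (C' : CosetSys emb Γb Γd)
    (D : G) (s' : C'.ι → Γd) (hC'a : ∀ x, C'.a x = D * emb ((s' x : Γd) : H))
    (hR : R.Distinct) (hC' : C'.Distinct)
    (hkey : ∀ (κ : Γa) (h : Γd) (i i₂ : R.ι),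
      R.a i * D * emb ((h : Γd) : H) = emb ((κ : Γa) : H) * R.a i₂ * D →
        ∃ β : Γb, emb ((β : Γb) : H) * D = D * emb ((h : Γd) : H)) :
    (R.comp C').Distinct := by
  rintro ⟨i, x⟩ ⟨i₂, x₂⟩ κ h
  have h1 : R.a i * C'.a x = emb ((κ : Γa) : H) * (R.a i₂ * C'.a x₂) := h
  rw [hC'a, hC'a] at h1
  have h2 : R.a i * D * emb (((s' x * (s' x₂)⁻¹ : Γd)) : H) = emb ((κ : Γa) : H) * R.a i₂ * D := by
    rw [Subgroup.coe_mul, Subgroup.coe_inv, map_mul, map_inv, ← mul_assoc, mul_assoc (R.a i),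
      h1]
    group
  obtain ⟨β, hβ⟩ := hkey κ (s' x * (s' x₂)⁻¹) i i₂ h2
  have hx : x = x₂ := by
    refine hC' x x₂ β ?_
    rw [hC'a, hC'a, ← mul_assoc, hβ, Subgroup.coe_mul, Subgroup.coe_inv, map_mul, map_inv]
    group
  subst hx
  have hi : i = i₂ := by
    refine hR i i₂ κ ?_
    rw [mul_inv_cancel, Subgroup.coe_one, map_one, mul_one] at h2
    exact mul_right_cancel h2
  subst hi
  rfl

section Weighted

variable {K : Type*} [CommRing K] {A : Type*} [AddCommGroup A] [Module K A]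

/-- **a transfer commutes with a weighted coset operator** -/
theorem transfer_wop (hemb : Function.Injective emb)
    (R : CosetSys emb Γa Γb) (R' : CosetSys emb Γc Γd)
    (C : CosetSys emb Γa Γc) (C' : CosetSys emb Γb Γd)
    (D : G) (μ : R.ι → R'.ι) (u : R.ι → Γc)
    (hμ : ∀ i, R.a i * D = D * emb ((u i : Γc) : H) * R'.a (μ i))
    (s : C.ι → Γc) (hCa : ∀ x, C.a x = D * emb ((s x : Γc) : H)) (x₀ : C.ι) (hx₀ : s x₀ = 1)
    (s' : C'.ι → Γd) (hC'a : ∀ x, C'.a x = D * emb ((s' x : Γd) : H))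
    (hD : (C.comp R').Distinct) (hD' : (R.comp C').Distinct)
    (hcard : Fintype.card C.ι = Fintype.card C'.ι)
    (hcardR : Fintype.card R.ι = Fintype.card R'.ι)
    {w : R.ι → K} {w' : R'.ι → K} (hw : Inv R w) (hw' : Inv R' w')
    (hww : ∀ i, w' (μ i) = w i) (φ : Additive Γa →+ A) :
    C'.op A (wop R w hw φ) = wop R' w' hw' (C.op A φ) := by
  rw [op_wop R C' hw φ, wop_op C R' hw' φ]
  refine (wop_eq_of_contained (R.comp C') (C.comp R') hemb hD' hD ?_
    (fun p : R.ι × C'.ι =>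
      ((C.σ (u p.1 * R'.c (s' p.2) (μ p.1)) x₀, R'.σ (s' p.2) (μ p.1)) : C.ι × R'.ι))
    1 (fun x => by rw [one_mul, mul_one])
    (fun p : R.ι × C'.ι => (C.c (u p.1 * R'.c (s' p.2) (μ p.1)) x₀)⁻¹) ?_ _ _ ?_ φ).symm
  · show Fintype.card (R.ι × C'.ι) = Fintype.card (C.ι × R'.ι)
    rw [Fintype.card_prod, Fintype.card_prod, hcard, hcardR, mul_comm]
  · rintro ⟨i, x'⟩
    show C.a (C.σ (u i * R'.c (s' x') (μ i)) x₀) * R'.a (R'.σ (s' x') (μ i))
      = 1 * emb (((C.c (u i * R'.c (s' x') (μ i)) x₀)⁻¹ : Γa) : H) * (R.a i * C'.a x')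
    have h1 := R'.rel (s' x') (μ i)
    have h2 := C.rel (u i * R'.c (s' x') (μ i)) x₀
    rw [hCa x₀, hx₀, Subgroup.coe_one, map_one, mul_one, Subgroup.coe_mul, map_mul] at h2
    have h3 : R.a i * (D * emb ((s' x' : Γd) : H))
        = emb ((C.c (u i * R'.c (s' x') (μ i)) x₀ : Γa) : H)
          * (C.a (C.σ (u i * R'.c (s' x') (μ i)) x₀) * R'.a (R'.σ (s' x') (μ i))) := by
      rw [← mul_assoc, hμ, mul_assoc (D * emb ((u i : Γc) : H)), h1, ← mul_assoc,
        mul_assoc D, h2, mul_assoc]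
    rw [one_mul, hC'a]
    rw [show emb (((C.c (u i * R'.c (s' x') (μ i)) x₀)⁻¹ : Γa) : H)
          * (R.a i * (D * emb ((s' x' : Γd) : H)))
      = emb (((C.c (u i * R'.c (s' x') (μ i)) x₀)⁻¹ : Γa) : H)
        * (emb ((C.c (u i * R'.c (s' x') (μ i)) x₀ : Γa) : H)
          * (C.a (C.σ (u i * R'.c (s' x') (μ i)) x₀) * R'.a (R'.σ (s' x') (μ i)))) by rw [h3]]
    rw [Subgroup.coe_inv, map_inv, inv_mul_cancel_left]
  · rintro ⟨i, x'⟩
    show (1 : K) * w' (R'.σ (s' x') (μ i)) = w i * 1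
    rw [one_mul, mul_one, hw', hww]

/-- the same with a scalar: `w' (μ i) = c⁻¹ w i` in the form `c * w' (μ i) = w i` -/
theorem transfer_wop_smul (hemb : Function.Injective emb)
    (R : CosetSys emb Γa Γb) (R' : CosetSys emb Γc Γd)
    (C : CosetSys emb Γa Γc) (C' : CosetSys emb Γb Γd)
    (D : G) (μ : R.ι → R'.ι) (u : R.ι → Γc)
    (hμ : ∀ i, R.a i * D = D * emb ((u i : Γc) : H) * R'.a (μ i))
    (s : C.ι → Γc) (hCa : ∀ x, C.a x = D * emb ((s x : Γc) : H)) (x₀ : C.ι) (hx₀ : s x₀ = 1)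
    (s' : C'.ι → Γd) (hC'a : ∀ x, C'.a x = D * emb ((s' x : Γd) : H))
    (hD : (C.comp R').Distinct) (hD' : (R.comp C').Distinct)
    (hcard : Fintype.card C.ι = Fintype.card C'.ι)
    (hcardR : Fintype.card R.ι = Fintype.card R'.ι)
    {w : R.ι → K} {w' : R'.ι → K} (hw : Inv R w) (hw' : Inv R' w') (c : K)
    (hww : ∀ i, c * w' (μ i) = w i) (φ : Additive Γa →+ A) (g : Γd) :
    C'.op A (wop R w hw φ) (Additive.ofMul g)
      = c • wop R' w' hw' (C.op A φ) (Additive.ofMul g) := by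
  rw [transfer_wop hemb R R' C C' D μ u hμ s hCa x₀ hx₀ s' hC'a hD hD' hcard hcardR hw
    (inv_smul R' c hw') (fun i => by rw [Pi.smul_apply, smul_eq_mul]; exact hww i) φ,
    wop_smul_weights_apply]

end Weighted

end Fermat.Agent.GB.B10.L2.Square
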