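/-
GATE-B / B10′ L-route, leaf (L2-ψ), `α_*` half (helper15): **the `q`-degeneracy transfer `coresq`
commutes with the Betti twist `R_ψ`** at a prime `r ∣ N`, `r ≠ q`.

`q ∤ N` prime, `θ' : (ZMod N)ˣ →* Δ`, `thQ θ' q` its inflation to level `N q` (helper83,
GB/B7/UqSqSys), `r ∣ N` prime, `ψ` a multiplicative character of `ZMod r`.  The twist at level `N q`
lands in `Γ_H(N q r)`, the transfer at level `N r` starts from `Γ_H(N r q)`: the two groups are equal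
(`gammaH_lift_thQ_eq`), the bookkeeping is `Cast.resIncl`.

* `mem_GammaH_comp_iff` : `Γ_H(θ' ∘ (mod N)) = Γ_H(θ') ∩ Γ₀(M)` for `N ∣ M`;
* `coresq_Rpsi` : `coresq (liftθ θ') (R_ψ^{(N q)} φ) = R_ψ^{(N)} (coresq θ' φ)`.
-/
import Mathlib
import Fermat.Agent.GB.B10.L2.Square
import Fermat.Agent.GB.B10.L2.Cast
import Fermat.Agent.GB.B7.UqSqSys
import Fermat.Agent.GB.B5.Betti.TwSame
import Fermat.Agent.GM.B.Distinct

set_option autoImplicit false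

open scoped MatrixGroups
open CongruenceSubgroup Matrix Matrix.SpecialLinearGroup
open P2MW.S_ModularForm_heckeT_slash_eq_self_of_mem_Gamma0.ModularForm.HeckeSlashInvariance
open Fermat.Agent.S16_helper49 Fermat.Agent.GM.B Fermat.Agent.GM.EisClass
open Fermat.Agent.GB.B3 Fermat.Agent.GB.B3.EisGamma0 Fermat.Agent.GB.B3.GamH
open Fermat.Agent.GB.B4.Twist Fermat.Agent.GB.B4.Twist.KerSys2 Fermat.Agent.GB.B4.Twist.RPsi
open Fermat.Agent.GB.B7.UqSq Fermat.Agent.GB.B5 Fermat.Agent.GB.B5.Betti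
open Fermat.Agent.GB.B10.L2.Cast Fermat.Agent.GB.B10.L2.Square
open scoped OnePoint

namespace Fermat.Agent.GB.B10.L2.Degen

/-! ### the groups -/

section Groups

variable {Δ : Type} [CommGroup Δ]

theorem gamma0_le_of_dvd' {N M : ℕ} (h : N ∣ M) : Gamma0 M ≤ Gamma0 N := by
  intro g hg
  rw [Fermat.Agent.GM.Amalgam.mem_Gamma0_iff_dvd] at hg ⊢
  exact (Int.natCast_dvd_natCast.mpr h).trans hg

theorem unitsMap_dUnits_eq {N M : ℕ} (h : N ∣ M) (g : SL(2, ℤ)) (hM : g ∈ Gamma0 M)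
    (hN : g ∈ Gamma0 N) : ZMod.unitsMap h (dUnits M ⟨g, hM⟩) = dUnits N ⟨g, hN⟩ := by
  apply Units.ext
  rw [coe_unitsMap_dUnits, coe_dUnits]
  rfl

/-- **`Γ_H(θ' ∘ (mod N)) = Γ_H(θ') ∩ Γ₀(M)`** -/
theorem mem_GammaH_comp_iff {N M : ℕ} (h : N ∣ M) (θ' : (ZMod N)ˣ →* Δ) (g : SL(2, ℤ)) :
    g ∈ GammaH (θ'.comp (ZMod.unitsMap h)) ↔ g ∈ Gamma0 M ∧ g ∈ GammaH θ' := by
  rw [mem_GammaH_iff, mem_GammaH_iff]
  constructor
  · rintro ⟨hM, h1⟩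
    refine ⟨hM, gamma0_le_of_dvd' h hM, ?_⟩
    rw [MonoidHom.comp_apply, unitsMap_dUnits_eq h g hM (gamma0_le_of_dvd' h hM)] at h1
    exact h1
  · rintro ⟨hM, hN, h1⟩
    refine ⟨hM, ?_⟩
    rw [MonoidHom.comp_apply, unitsMap_dUnits_eq h g hM hN]
    exact h1

theorem mem_GammaH_thQ_iff {N q : ℕ} (θ' : (ZMod N)ˣ →* Δ) (g : SL(2, ℤ)) :
    g ∈ GammaH (thQ θ' q) ↔ g ∈ Gamma0 (N * q) ∧ g ∈ GammaH θ' :=
  mem_GammaH_comp_iff (Nat.dvd_mul_right N q) θ' g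

theorem mem_GammaH_liftθ_iff {N r : ℕ} (θ' : (ZMod N)ˣ →* Δ) (g : SL(2, ℤ)) :
    g ∈ GammaH (liftθ (r := r) θ') ↔ g ∈ Gamma0 (N * r) ∧ g ∈ GammaH θ' :=
  mem_GammaH_comp_iff (Nat.dvd_mul_right N r) θ' g

theorem gammaH_thQ_le {N q : ℕ} (θ' : (ZMod N)ˣ →* Δ) : GammaH (thQ θ' q) ≤ GammaH θ' :=
  fun g hg => ((mem_GammaH_thQ_iff θ' g).mp hg).2

theorem gammaH_liftθ_le {N r : ℕ} (θ' : (ZMod N)ˣ →* Δ) :
    GammaH (liftθ (r := r) θ') ≤ GammaH θ' :=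
  fun g hg => ((mem_GammaH_liftθ_iff θ' g).mp hg).2

/-- membership in `Γ_H(N q r)`, spelled `liftθ (thQ θ' q)` -/
theorem mem_GammaH_liftθ_thQ_iff {N q r : ℕ} (θ' : (ZMod N)ˣ →* Δ) (g : SL(2, ℤ)) :
    g ∈ GammaH (liftθ (r := r) (thQ θ' q)) ↔ g ∈ Gamma0 (N * q * r) ∧ g ∈ GammaH θ' := by
  rw [mem_GammaH_liftθ_iff, mem_GammaH_thQ_iff]
  constructor
  · rintro ⟨h1, -, h3⟩
    exact ⟨h1, h3⟩
  · rintro ⟨h1, h3⟩
    exact ⟨h1, gamma0_le_of_dvd' (Nat.dvd_mul_right (N * q) r) h1, h3⟩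

/-- membership in `Γ_H(N r q)`, spelled `thQ (liftθ θ') q` -/
theorem mem_GammaH_thQ_liftθ_iff {N q r : ℕ} (θ' : (ZMod N)ˣ →* Δ) (g : SL(2, ℤ)) :
    g ∈ GammaH (thQ (liftθ (r := r) θ') q) ↔ g ∈ Gamma0 (N * r * q) ∧ g ∈ GammaH θ' := by
  rw [mem_GammaH_thQ_iff, mem_GammaH_liftθ_iff]
  constructor
  · rintro ⟨h1, -, h3⟩
    exact ⟨h1, h3⟩
  · rintro ⟨h1, h3⟩
    exact ⟨h1, gamma0_le_of_dvd' (Nat.dvd_mul_right (N * r) q) h1, h3⟩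

/-- **the two spellings of `Γ_H(N q r)` coincide** -/
theorem gammaH_lift_thQ_eq {N q r : ℕ} (θ' : (ZMod N)ˣ →* Δ) :
    GammaH (thQ (liftθ (r := r) θ') q) = GammaH (liftθ (r := r) (thQ θ' q)) := by
  ext g
  rw [mem_GammaH_thQ_liftθ_iff, mem_GammaH_liftθ_thQ_iff, Nat.mul_right_comm]

theorem gammaH_thQ_lift_le {N q r : ℕ} (θ' : (ZMod N)ˣ →* Δ) :
    GammaH (thQ (liftθ (r := r) θ') q) ≤ GammaH (liftθ (r := r) (thQ θ' q)) :=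
  (gammaH_lift_thQ_eq θ').le

theorem gammaH_lift_thQ_le {N q r : ℕ} (θ' : (ZMod N)ˣ →* Δ) :
    GammaH (liftθ (r := r) (thQ θ' q)) ≤ GammaH (thQ (liftθ (r := r) θ') q) :=
  (gammaH_lift_thQ_eq θ').ge

end Groups

/-! ### `α_*` commutes with the twist -/

section Alpha

variable {N q r : ℕ} [Fact q.Prime] [Fact r.Prime] {Δ : Type} [CommGroup Δ]
  (θ' : (ZMod N)ˣ →* Δ) (hqN : ¬ q ∣ N) (hrN : r ∣ N) (hqr : q ≠ r)

include hqN hqr in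
theorem not_dvd_mul_of_ne : ¬ q ∣ N * r := by
  intro h
  rcases (Nat.Prime.dvd_mul (Fact.out : q.Prime)).mp h with h1 | h1
  · exact hqN h1
  · exact hqr ((Nat.prime_dvd_prime_iff_eq (Fact.out : q.Prime) (Fact.out : r.Prime)).mp h1)

/-- the section of the transversal of `coresHSys` in `Γ_H(θ')` -/
noncomputable def sC (b₀ d₀ : ℤ) (hbd : (q : ℤ) * d₀ - N * b₀ = 1) (x : OnePoint (ZMod q)) :
    GammaH θ' :=
  kerMk (chi θ') (rC N q b₀ d₀ hbd x) (chi_rC θ' b₀ d₀ hbd x)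

theorem coresHSys_a (b₀ d₀ : ℤ) (hbd : (q : ℤ) * d₀ - N * b₀ = 1) (x : OnePoint (ZMod q)) :
    (coresHSys θ' hqN b₀ d₀ hbd).a x = 1 * embR ((sC θ' b₀ d₀ hbd x : GammaH θ') : SL(2, ℤ)) := by
  rw [one_mul]
  exact coresSys_a hqN b₀ d₀ hbd x

theorem sC_infty (b₀ d₀ : ℤ) (hbd : (q : ℤ) * d₀ - N * b₀ = 1) :
    sC θ' b₀ d₀ hbd (∞ : OnePoint (ZMod q)) = 1 := rfl

theorem coresHSys_distinct (b₀ d₀ : ℤ) (hbd : (q : ℤ) * d₀ - N * b₀ = 1) :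
    (coresHSys θ' hqN b₀ d₀ hbd).Distinct :=
  kerSys₂_distinct _ _ _ _ (coresSys_distinct hqN b₀ d₀ hbd)

include hqN hqr in
/-- the KEY property of `Square.comp_distinct_of_key` for `α` -/
theorem key_alpha (κ : GammaH (thQ θ' q)) (h : GammaH (liftθ (r := r) θ')) (i i₂ : ZMod r)
    (hrel : twA r i * 1 * embR ((h : GammaH (liftθ (r := r) θ')) : SL(2, ℤ))
      = embR ((κ : GammaH (thQ θ' q)) : SL(2, ℤ)) * twA r i₂ * 1) :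
    ∃ β : GammaH (liftθ (r := r) (thQ θ' q)),
      embR ((β : GammaH (liftθ (r := r) (thQ θ' q))) : SL(2, ℤ)) * 1
        = 1 * embR ((h : GammaH (liftθ (r := r) θ')) : SL(2, ℤ)) := by
  have hrz : (r : ℤ) ≠ 0 := by exact_mod_cast (Fact.out : r.Prime).ne_zero
  rw [mul_one, mul_one, twA_eq_glOf, twA_eq_glOf] at hrel
  obtain ⟨h10, -⟩ := upper_rel_entries hrz (h : SL(2, ℤ)) (κ : SL(2, ℤ)) hrel
  obtain ⟨hκ0, -⟩ := (mem_GammaH_thQ_iff θ' _).mp κ.2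
  obtain ⟨hh0, hhH⟩ := (mem_GammaH_liftθ_iff θ' _).mp h.2
  rw [Fermat.Agent.GM.Amalgam.mem_Gamma0_iff_dvd] at hκ0 hh0
  rw [h10] at hκ0
  have hmem : ((h : GammaH (liftθ (r := r) θ')) : SL(2, ℤ)) ∈ Gamma0 (N * q * r) := by
    rw [Fermat.Agent.GM.Amalgam.mem_Gamma0_iff_dvd]
    have h1 : N * r ∣ (((h : GammaH (liftθ (r := r) θ')) : SL(2, ℤ)) 1 0).natAbs :=
      Int.natCast_dvd.mp hh0
    have h2 : q ∣ (((h : GammaH (liftθ (r := r) θ')) : SL(2, ℤ)) 1 0).natAbs :=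
      Int.natCast_dvd.mp ((Int.natCast_dvd_natCast.mpr (Dvd.intro_left N rfl)).trans hκ0)
    have hcop : Nat.Coprime (N * r) q :=
      ((Nat.Prime.coprime_iff_not_dvd (Fact.out : q.Prime)).mpr
        (not_dvd_mul_of_ne hqN hqr)).symm
    have h3 := hcop.mul_dvd_of_dvd_of_dvd h1 h2
    rw [Nat.mul_right_comm] at h3
    exact Int.natCast_dvd.mpr h3
  exact ⟨⟨_, (mem_GammaH_liftθ_thQ_iff θ' _).mpr ⟨hmem, hhH⟩⟩, by rw [mul_one, one_mul]⟩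

variable {R : Type*} [CommRing R] {A : Type*} [AddCommGroup A] [Module R A]

/-- **`α_*` commutes with the twist**, for arbitrary Bézout pairs -/
theorem coresHSys_op_Rpsi (b₀ d₀ : ℤ) (hbd : (q : ℤ) * d₀ - N * b₀ = 1)
    (b₁ d₁ : ℤ) (hbd₁ : (q : ℤ) * d₁ - (N * r : ℕ) * b₁ = 1)
    (ψ : MulChar (ZMod r) R)
    (hψ : ∀ g : GammaH (liftθ (r := r) (thQ θ' q)), ψ (dr r (g : SL(2, ℤ))) ^ 2 = 1)
    (hψ' : ∀ g : GammaH (liftθ (r := r) θ'), ψ (dr r (g : SL(2, ℤ))) ^ 2 = 1)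
    (φ : Additive (GammaH (thQ θ' q)) →+ A) :
    (coresHSys (liftθ (r := r) θ') (not_dvd_mul_of_ne hqN hqr) b₁ d₁ hbd₁).op A
        (resIncl (gammaH_thQ_lift_le θ') A (Rpsi (thQ θ' q) (Dvd.dvd.mul_right hrN q) ψ hψ φ))
      = Rpsi θ' hrN ψ hψ' ((coresHSys θ' hqN b₀ d₀ hbd).op A φ) := by
  rw [← op_castSrc]
  have hqNr := not_dvd_mul_of_ne hqN hqr
  exact transfer_wop embR_injective (twSys (thQ θ' q) (Dvd.dvd.mul_right hrN q)) (twSys θ' hrN)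
    (coresHSys θ' hqN b₀ d₀ hbd)
    (castSrc (coresHSys (liftθ (r := r) θ') hqNr b₁ d₁ hbd₁) (gammaH_thQ_lift_le θ'))
    1 id (fun _ => 1)
    (fun i => by
      show twA r i * 1 = 1 * embR (((1 : GammaH θ')) : SL(2, ℤ)) * twA r i
      rw [Subgroup.coe_one, map_one, mul_one, one_mul, one_mul])
    (sC θ' b₀ d₀ hbd) (coresHSys_a θ' hqN b₀ d₀ hbd) ∞ (sC_infty θ' b₀ d₀ hbd)
    (sC (liftθ (r := r) θ') b₁ d₁ hbd₁) (coresHSys_a (liftθ (r := r) θ') hqNr b₁ d₁ hbd₁)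
    (comp_distinct_of embR_injective _ _ 1 (sC θ' b₀ d₀ hbd) (coresHSys_a θ' hqN b₀ d₀ hbd)
      (fun γ => ⟨⟨_, gammaH_thQ_le θ' γ.2⟩, by rw [mul_one, one_mul]⟩)
      (coresHSys_distinct θ' hqN b₀ d₀ hbd) (twSys_distinct θ' hrN))
    (comp_distinct_of_key _ _ 1 (sC (liftθ (r := r) θ') b₁ d₁ hbd₁)
      (coresHSys_a (liftθ (r := r) θ') hqNr b₁ d₁ hbd₁)
      (twSys_distinct (thQ θ' q) (Dvd.dvd.mul_right hrN q))
      (castSrc_distinct _ _ (gammaH_lift_thQ_le θ')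
        (coresHSys_distinct (liftθ (r := r) θ') hqNr b₁ d₁ hbd₁))
      (key_alpha θ' hqN hqr))
    rfl rfl (inv_wψ (thQ θ' q) (Dvd.dvd.mul_right hrN q) ψ hψ) (inv_wψ θ' hrN ψ hψ')
    (fun _ => rfl) φ

/-- **`α_* ∘ R_ψ = R_ψ ∘ α_*`** -/
theorem coresq_Rpsi (ψ : MulChar (ZMod r) R)
    (hψ : ∀ g : GammaH (liftθ (r := r) (thQ θ' q)), ψ (dr r (g : SL(2, ℤ))) ^ 2 = 1)
    (hψ' : ∀ g : GammaH (liftθ (r := r) θ'), ψ (dr r (g : SL(2, ℤ))) ^ 2 = 1)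
    (φ : Additive (GammaH (thQ θ' q)) →+ A) :
    coresq (liftθ (r := r) θ') (not_dvd_mul_of_ne hqN hqr) A
        (resIncl (gammaH_thQ_lift_le θ') A (Rpsi (thQ θ' q) (Dvd.dvd.mul_right hrN q) ψ hψ φ))
      = Rpsi θ' hrN ψ hψ' (coresq θ' hqN A φ) :=
  coresHSys_op_Rpsi θ' hqN hrN hqr _ _ _ _ _ _ ψ hψ hψ' φ

end Alpha

end Fermat.Agent.GB.B10.L2.Degen
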