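/-
GATE-B / B10′ L-route, leaf (L2-ψ), `β_*` half (helper15): **the `δ`-twisted `q`-degeneracy transfer
`coresDq` commutes with the Betti twist `R_ψ` up to the unit `ψ(q)⁻¹`**.

Same setting as `DegenAlpha`.  The representatives of `coresDSys` are `D · s_y`, `D = diag(1, q)`,
`s_y ∈ Γ₁(N)`-like (`GM.B.dlt_mul_gD`); `[r i; 0 r] · D = D · T^k · [r (q i); 0 r]`, which moves the
index of the twist by `q`: this is the factor `ψ(q)⁻¹`.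

* `coresDq_Rpsi` :
  `coresDq (liftθ θ') (R_ψ^{(N q)} φ) (g) = ψ(q⁻¹) • R_ψ^{(N)} (coresDq θ' φ) (g)`.
-/
import Mathlib
import Fermat.Agent.GB.B10.L2.DegenAlpha

set_option autoImplicit false

open scoped MatrixGroups
open CongruenceSubgroup Matrix Matrix.SpecialLinearGroup
open P2MW.S_ModularForm_heckeT_slash_eq_self_of_mem_Gamma0.ModularForm.HeckeSlashInvariance
open Fermat.Agent.S16_helper49 Fermat.Agent.GM.B Fermat.Agent.GM.EisClass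
open Fermat.Agent.GM.Amalgam
open Fermat.Agent.GB.B3 Fermat.Agent.GB.B3.EisGamma0 Fermat.Agent.GB.B3.GamH
open Fermat.Agent.GB.B4.Twist Fermat.Agent.GB.B4.Twist.KerSys2 Fermat.Agent.GB.B4.Twist.RPsi
open Fermat.Agent.GB.B4.Twist.RPsiU
open Fermat.Agent.GB.B7.UqSq Fermat.Agent.GB.B5 Fermat.Agent.GB.B5.Betti
open Fermat.Agent.GB.B10.L2.Cast Fermat.Agent.GB.B10.L2.Square
open scoped OnePoint

namespace Fermat.Agent.GB.B10.L2.Degen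

/-! ### the matrix `D = diag(1, q)` -/

section DQ

variable {q : ℕ} [Fact q.Prime]

/-- `D = diag(1, q)` -/
noncomputable def dQ (q : ℕ) : GL (Fin 2) ℝ := glOf 1 0 0 (q : ℤ)

theorem qz_ne_zero : (q : ℤ) ≠ 0 := by exact_mod_cast (Fact.out : q.Prime).ne_zero

theorem zq_eq_glOf : zq q = glOf q 0 0 q := by
  have hq : (q : ℤ) ≠ 0 := qz_ne_zero
  have h0 : (q : ℤ) * q - 0 * 0 ≠ 0 := by simpa using mul_ne_zero hq hq
  apply Matrix.GeneralLinearGroup.ext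
  intro i j
  rw [val_glOf h0]
  unfold zq
  fin_cases i <;> fin_cases j <;> simp [Matrix.GeneralLinearGroup.scalar, Matrix.natCast_apply]

theorem dlt_mul_dQ : dlt q * dQ q = zq q := by
  have hq : (q : ℤ) ≠ 0 := qz_ne_zero
  have hq0 : q ≠ 0 := (Fact.out : q.Prime).ne_zero
  show ModularForm.heckeDiagMatrix q * dQ q = zq q
  rw [← glOf_eq_heckeDiagMatrix hq0, dQ, zq_eq_glOf,
    glOf_mul_glOf (by simpa using hq) (by simpa using hq)]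
  exact glOf_eq_of_eq (by ring) (by ring) (by ring) (by ring)

theorem dQ_eq : dQ q = (dlt q)⁻¹ * zq q := by
  rw [eq_inv_mul_iff_mul_eq]
  exact dlt_mul_dQ

end DQ

/-! ### the representatives of `coresDSys` -/

section Reps

variable {N q : ℕ} [Fact q.Prime] (hqN : ¬ q ∣ N) (b₀ d₀ : ℤ) (hbd : (q : ℤ) * d₀ - N * b₀ = 1)

/-- the representatives of `cores_δ` are `D · s_y` -/
theorem coresDSys_a (y : OnePoint (ZMod q)) :
    (coresDSys hqN b₀ d₀ hbd).a y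
      = dQ q * embR ((sD N q b₀ d₀ hbd y : Gamma0 N) : SL(2, ℤ)) := by
  unfold coresDSys
  refine (CosetSys.twist_a (heckeSys hqN) embR_injective _ _ _ _ y).trans ?_
  rw [heckeSys_a, one_mul]
  apply mul_left_cancel (a := dlt q)
  rw [dlt_mul_gD, ← mul_assoc, dlt_mul_dQ]

theorem coresDSys_distinct : (coresDSys hqN b₀ d₀ hbd).Distinct := by
  unfold coresDSys
  refine CosetSys.twist_distinct _ _ _ _ _ _ (heckeSys_distinct hqN) ?_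
  intro κ
  exact ⟨⟨_, gamma0_le_of_dvd' (Nat.dvd_mul_right N q) κ.2⟩, by rw [mul_one, one_mul]⟩

theorem dN_sD (y : OnePoint (ZMod q)) : dN (sD N q b₀ d₀ hbd y) = 1 := by
  induction y using OnePoint.rec with
  | infty =>
    show ((((repDinf N q b₀ d₀ hbd) 1 1 : ℤ)) : ZMod N) = 1
    unfold repDinf
    rw [mkZ_11, Int.cast_one]
  | coe j =>
    show ((((repDfin j.val) 1 1 : ℤ)) : ZMod N) = 1
    unfold repDfin
    rw [mkZ_11, Int.cast_one]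

variable {Δ : Type} [CommGroup Δ] (θ' : (ZMod N)ˣ →* Δ)

theorem chi_sD (y : OnePoint (ZMod q)) : chi θ' (sD N q b₀ d₀ hbd y) = 1 := by
  rw [chi_apply]
  have : dUnits N (sD N q b₀ d₀ hbd y) = 1 := by
    apply Units.ext
    rw [coe_dUnits, Units.val_one]
    exact dN_sD b₀ d₀ hbd y
  rw [this, map_one]

/-- the section of the transversal of `coresDHSys` in `Γ_H(θ')` -/
noncomputable def sDH (y : OnePoint (ZMod q)) : GammaH θ' :=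
  kerMk (chi θ') (sD N q b₀ d₀ hbd y) (chi_sD b₀ d₀ hbd θ' y)

theorem coresDHSys_a (y : OnePoint (ZMod q)) :
    (coresDHSys θ' hqN b₀ d₀ hbd).a y
      = dQ q * embR ((sDH b₀ d₀ hbd θ' y : GammaH θ') : SL(2, ℤ)) :=
  coresDSys_a hqN b₀ d₀ hbd y

theorem sDH_zero : sDH b₀ d₀ hbd θ' (((0 : ZMod q)) : OnePoint (ZMod q)) = 1 := by
  apply Subtype.ext
  show repDfin ((0 : ZMod q)).val = 1
  rw [ZMod.val_zero]
  ext i j
  fin_cases i <;> fin_cases j <;> simp [repDfin, mkZ]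

theorem coresDHSys_distinct : (coresDHSys θ' hqN b₀ d₀ hbd).Distinct :=
  kerSys₂_distinct _ _ _ _ (coresDSys_distinct hqN b₀ d₀ hbd)

end Reps

/-! ### `β_*` and the twist -/

section Beta

variable {N q r : ℕ} [Fact q.Prime] [Fact r.Prime] {Δ : Type} [CommGroup Δ]
  (θ' : (ZMod N)ˣ →* Δ) (hqN : ¬ q ∣ N) (hrN : r ∣ N) (hqr : q ≠ r)

/-- the index map `i ↦ q i` -/
def muQ (q : ℕ) {r : ℕ} (i : ZMod r) : ZMod r := ((q * i.val : ℕ) : ZMod r)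

omit [Fact q.Prime] in
theorem muQ_eq (i : ZMod r) : muQ q i = (q : ZMod r) * i := by
  unfold muQ
  rw [Nat.cast_mul, ZMod.natCast_zmod_val]

/-- **`[r i; 0 r] · D = D · T^k · [r (q i); 0 r]`** -/
theorem twA_mul_dQ (i : ZMod r) :
    twA r i * dQ q
      = dQ q * embR ((tnH θ' (((q * i.val / r : ℕ)) : ℤ) : GammaH θ') : SL(2, ℤ))
        * twA r (muQ q i) := by
  have hq : (q : ℤ) ≠ 0 := qz_ne_zero
  have hr : (r : ℤ) ≠ 0 := qz_ne_zero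
  have hrel : (((muQ q i).val : ℕ) : ℤ) + (r : ℤ) * (((q * i.val / r : ℕ)) : ℤ)
      = (q : ℤ) * ((i.val : ℕ) : ℤ) := by
    have h1 : (muQ q i).val = (q * i.val) % r := by
      unfold muQ
      rw [ZMod.val_natCast]
    rw [h1]
    exact_mod_cast Nat.mod_add_div (q * i.val) r
  have hrr : ∀ V : ℤ, (r : ℤ) * (r : ℤ) - V * 0 ≠ 0 := fun V => by
    simpa using mul_ne_zero hr hr
  have h1q : (1 : ℤ) * (q : ℤ) - 0 * 0 ≠ 0 := by simpa using hq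
  have h1k : ∀ k : ℤ, (1 : ℤ) * 1 - k * 0 ≠ 0 := fun k => by norm_num
  rw [coe_tnH, embR_Tn, twA_eq_glOf, twA_eq_glOf, dQ, glOf_mul_glOf (hrr _) h1q,
    glOf_mul_glOf h1q (h1k _),
    glOf_mul_glOf (by
      have : ((1 : ℤ) * 1 + 0 * 0) * (0 * (((q * i.val / r : ℕ)) : ℤ) + (q : ℤ) * 1)
          - (1 * (((q * i.val / r : ℕ)) : ℤ) + 0 * 1) * (0 * 1 + (q : ℤ) * 0) = (q : ℤ) := by ring
      rw [this]; exact hq) (hrr _)]
  refine glOf_eq_of_eq (by ring) ?_ (by ring) (by ring)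
  linear_combination (-1 : ℤ) * hrel

/-- conjugation by `D` sends `Γ_H(N q)` into `Γ_H(N)` -/
theorem conj_dQ (γ : GammaH (thQ θ' q)) :
    ∃ γ' : GammaH θ', embR ((γ : GammaH (thQ θ' q)) : SL(2, ℤ)) * dQ q
      = dQ q * embR ((γ' : GammaH θ') : SL(2, ℤ)) := by
  set k : Gamma0 (N * q) := kerIncl (chi (thQ θ' q)) γ with hk
  have hχ : chi θ' (degenDelta N q k) = 1 := by
    rw [← chi_thQ_of_entry θ' k (degenDelta N q k) (degenDelta_entries k).2.2.2]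
    exact chi_kerIncl _ γ
  refine ⟨kerMk (chi θ') (degenDelta N q k) hχ, ?_⟩
  have h := dlt_rel_degenDelta (N := N) k
  have h' : embR ((k : Gamma0 (N * q)) : SL(2, ℤ)) * (dlt q)⁻¹
      = (dlt q)⁻¹ * embR ((degenDelta N q k : Gamma0 N) : SL(2, ℤ)) := by
    rw [eq_inv_mul_iff_mul_eq, ← mul_assoc, h, mul_assoc, mul_inv_cancel, mul_one]
  show embR ((k : Gamma0 (N * q)) : SL(2, ℤ)) * dQ q
    = dQ q * embR ((degenDelta N q k : Gamma0 N) : SL(2, ℤ))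
  rw [dQ_eq, ← mul_assoc, h', mul_assoc, mul_assoc, zq_comm]

include hqr in
/-- the KEY property of `Square.comp_distinct_of_key` for `β` -/
theorem key_beta (κ : GammaH (thQ θ' q)) (h : GammaH (liftθ (r := r) θ')) (i i₂ : ZMod r)
    (hrel : twA r i * dQ q * embR ((h : GammaH (liftθ (r := r) θ')) : SL(2, ℤ))
      = embR ((κ : GammaH (thQ θ' q)) : SL(2, ℤ)) * twA r i₂ * dQ q) :
    ∃ β : GammaH (liftθ (r := r) (thQ θ' q)),
      embR ((β : GammaH (liftθ (r := r) (thQ θ' q))) : SL(2, ℤ)) * dQ q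
        = dQ q * embR ((h : GammaH (liftθ (r := r) θ')) : SL(2, ℤ)) := by
  have hq : (q : ℤ) ≠ 0 := qz_ne_zero
  have hr : (r : ℤ) ≠ 0 := qz_ne_zero
  set g : SL(2, ℤ) := ((h : GammaH (liftθ (r := r) θ')) : SL(2, ℤ)) with hg
  set c : SL(2, ℤ) := ((κ : GammaH (thQ θ' q)) : SL(2, ℤ)) with hc
  have hgd : g 0 0 * g 1 1 - g 0 1 * g 1 0 = 1 := Fermat.Agent.GM.Amalgam.det_eq_one g
  have hcd : c 0 0 * c 1 1 - c 0 1 * c 1 0 = 1 := Fermat.Agent.GM.Amalgam.det_eq_one c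
  have hg0 : g 0 0 * g 1 1 - g 0 1 * g 1 0 ≠ 0 := by rw [hgd]; norm_num
  have hc0 : c 0 0 * c 1 1 - c 0 1 * c 1 0 ≠ 0 := by rw [hcd]; norm_num
  have hrr : ∀ V : ℤ, (r : ℤ) * (r : ℤ) - V * 0 ≠ 0 := fun V => by
    simpa using mul_ne_zero hr hr
  have h1q : (1 : ℤ) * (q : ℤ) - 0 * 0 ≠ 0 := by simpa using hq
  have hrq : ∀ V : ℤ, ((r : ℤ) * 1 + V * 0) * (0 * 0 + (r : ℤ) * (q : ℤ))
      - ((r : ℤ) * 0 + V * (q : ℤ)) * (0 * 1 + (r : ℤ) * 0) ≠ 0 := fun V => by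
    have : ((r : ℤ) * 1 + V * 0) * (0 * 0 + (r : ℤ) * (q : ℤ))
      - ((r : ℤ) * 0 + V * (q : ℤ)) * (0 * 1 + (r : ℤ) * 0) = (r : ℤ) * ((r : ℤ) * q) := by ring
    rw [this]
    exact mul_ne_zero hr (mul_ne_zero hr hq)
  have e1 : embR g = glOf (g 0 0) (g 0 1) (g 1 0) (g 1 1) := mapGL_eq_glOf g
  have e2 : embR c = glOf (c 0 0) (c 0 1) (c 1 0) (c 1 1) := mapGL_eq_glOf c
  -- the entry `(0, 1)` of the relation
  have hrel' := hrel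
  rw [e1, e2, twA_eq_glOf, twA_eq_glOf, dQ, glOf_mul_glOf (hrr _) h1q, glOf_mul_glOf (hrq _) hg0,
    glOf_mul_glOf hc0 (hrr _)] at hrel'
  rw [glOf_mul_glOf (by
    have : (c 0 0 * (r : ℤ) + c 0 1 * 0) * (c 1 0 * ((i₂.val : ℕ) : ℤ) + c 1 1 * (r : ℤ))
        - (c 0 0 * ((i₂.val : ℕ) : ℤ) + c 0 1 * (r : ℤ)) * (c 1 0 * (r : ℤ) + c 1 1 * 0)
        = ((r : ℤ) * r) * (c 0 0 * c 1 1 - c 0 1 * c 1 0) := by ring
    rw [this, hcd, mul_one]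
    exact mul_ne_zero hr hr) h1q] at hrel'
  obtain ⟨-, e01, -, -⟩ := glOf_inj (by
    have : (((r : ℤ) * 1 + ((i.val : ℕ) : ℤ) * 0) * g 0 0
          + ((r : ℤ) * 0 + ((i.val : ℕ) : ℤ) * (q : ℤ)) * g 1 0)
        * ((0 * 1 + (r : ℤ) * 0) * g 0 1 + (0 * 0 + (r : ℤ) * (q : ℤ)) * g 1 1)
        - (((r : ℤ) * 1 + ((i.val : ℕ) : ℤ) * 0) * g 0 1
          + ((r : ℤ) * 0 + ((i.val : ℕ) : ℤ) * (q : ℤ)) * g 1 1)
        * ((0 * 1 + (r : ℤ) * 0) * g 0 0 + (0 * 0 + (r : ℤ) * (q : ℤ)) * g 1 0)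
        = ((r : ℤ) * ((r : ℤ) * q)) * (g 0 0 * g 1 1 - g 0 1 * g 1 0) := by ring
    rw [this, hgd, mul_one]
    exact mul_ne_zero hr (mul_ne_zero hr hq)) (by
    have : ((c 0 0 * (r : ℤ) + c 0 1 * 0) * 1 + (c 0 0 * ((i₂.val : ℕ) : ℤ) + c 0 1 * (r : ℤ)) * 0)
        * ((c 1 0 * (r : ℤ) + c 1 1 * 0) * 0
          + (c 1 0 * ((i₂.val : ℕ) : ℤ) + c 1 1 * (r : ℤ)) * (q : ℤ))
        - ((c 0 0 * (r : ℤ) + c 0 1 * 0) * 0
          + (c 0 0 * ((i₂.val : ℕ) : ℤ) + c 0 1 * (r : ℤ)) * (q : ℤ))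
        * ((c 1 0 * (r : ℤ) + c 1 1 * 0) * 1
          + (c 1 0 * ((i₂.val : ℕ) : ℤ) + c 1 1 * (r : ℤ)) * 0)
        = ((r : ℤ) * ((r : ℤ) * q)) * (c 0 0 * c 1 1 - c 0 1 * c 1 0) := by ring
    rw [this, hcd, mul_one]
    exact mul_ne_zero hr (mul_ne_zero hr hq)) hrel'
  -- `q ∣ g 0 1`
  have hdvd : (q : ℤ) ∣ g 0 1 := by
    have h1 : (q : ℤ) ∣ g 0 1 * (r : ℤ) :=
      ⟨c 0 0 * ((i₂.val : ℕ) : ℤ) + c 0 1 * (r : ℤ) - ((i.val : ℕ) : ℤ) * g 1 1, by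
        linear_combination e01⟩
    have hcop : IsCoprime (q : ℤ) (r : ℤ) :=
      Nat.isCoprime_iff_coprime.mpr
        ((Nat.coprime_primes (Fact.out : q.Prime) (Fact.out : r.Prime)).mpr hqr)
    exact hcop.dvd_of_dvd_mul_right h1
  obtain ⟨t, ht⟩ := hdvd
  obtain ⟨hh0, hhH⟩ := (mem_GammaH_liftθ_iff θ' _).mp h.2
  rw [Fermat.Agent.GM.Amalgam.mem_Gamma0_iff_dvd] at hh0
  have hdet : g 0 0 * g 1 1 - t * ((q : ℤ) * g 1 0) = 1 := by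
    linear_combination hgd + g 1 0 * ht
  have hmem0 : slOf (g 0 0) t ((q : ℤ) * g 1 0) (g 1 1) hdet ∈ Gamma0 (N * q * r) := by
    rw [slOf_mem_Gamma0]
    obtain ⟨s, hs⟩ := hh0
    refine ⟨s, ?_⟩
    rw [← hg] at hs
    rw [hs]
    push_cast
    ring
  have hmemH : slOf (g 0 0) t ((q : ℤ) * g 1 0) (g 1 1) hdet ∈ GammaH θ' := by
    rw [mem_GammaH_iff] at hhH ⊢
    obtain ⟨hgN, hθ⟩ := hhH
    refine ⟨gamma0_le_of_dvd' (Dvd.intro _ (mul_assoc N q r).symm) hmem0, ?_⟩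
    rw [← hθ]
    congr 1
    apply Units.ext
    rw [coe_dUnits, coe_dUnits]
    rfl
  refine ⟨⟨_, (mem_GammaH_liftθ_thQ_iff θ' _).mpr ⟨hmem0, hmemH⟩⟩, ?_⟩
  show embR (slOf (g 0 0) t ((q : ℤ) * g 1 0) (g 1 1) hdet) * dQ q = dQ q * embR g
  have e3 : embR (slOf (g 0 0) t ((q : ℤ) * g 1 0) (g 1 1) hdet)
      = glOf (g 0 0) t ((q : ℤ) * g 1 0) (g 1 1) := mapGL_slOf _ _ _ _ hdet
  rw [e3, e1, dQ, glOf_mul_glOf (by rw [hdet]; norm_num) h1q, glOf_mul_glOf h1q hg0]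
  refine glOf_eq_of_eq (by ring) ?_ (by ring) (by ring)
  rw [ht]; ring

include hqr in
theorem natCast_q_ne_zero : (q : ZMod r) ≠ 0 := by
  intro h
  rw [ZMod.natCast_eq_zero_iff] at h
  exact hqr ((Nat.prime_dvd_prime_iff_eq (Fact.out : r.Prime) (Fact.out : q.Prime)).mp h).symm

variable {R : Type*} [CommRing R] {A : Type*} [AddCommGroup A] [Module R A]

/-- **`β_*` commutes with the twist up to `ψ(q)⁻¹`**, for arbitrary Bézout pairs, pointwise -/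
theorem coresDHSys_op_Rpsi_apply (b₀ d₀ : ℤ) (hbd : (q : ℤ) * d₀ - N * b₀ = 1)
    (b₁ d₁ : ℤ) (hbd₁ : (q : ℤ) * d₁ - (N * r : ℕ) * b₁ = 1)
    (ψ : MulChar (ZMod r) R)
    (hψ : ∀ g : GammaH (liftθ (r := r) (thQ θ' q)), ψ (dr r (g : SL(2, ℤ))) ^ 2 = 1)
    (hψ' : ∀ g : GammaH (liftθ (r := r) θ'), ψ (dr r (g : SL(2, ℤ))) ^ 2 = 1)
    (φ : Additive (GammaH (thQ θ' q)) →+ A) (g : GammaH (liftθ (r := r) θ')) :
    (coresDHSys (liftθ (r := r) θ') (not_dvd_mul_of_ne hqN hqr) b₁ d₁ hbd₁).op A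
        (resIncl (gammaH_thQ_lift_le θ') A (Rpsi (thQ θ' q) (Dvd.dvd.mul_right hrN q) ψ hψ φ))
        (Additive.ofMul g)
      = ψ ((q : ZMod r)⁻¹) •
          Rpsi θ' hrN ψ hψ' ((coresDHSys θ' hqN b₀ d₀ hbd).op A φ) (Additive.ofMul g) := by
  rw [← op_castSrc]
  have hqNr := not_dvd_mul_of_ne hqN hqr
  exact transfer_wop_smul embR_injective (twSys (thQ θ' q) (Dvd.dvd.mul_right hrN q))
    (twSys θ' hrN) (coresDHSys θ' hqN b₀ d₀ hbd)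
    (castSrc (coresDHSys (liftθ (r := r) θ') hqNr b₁ d₁ hbd₁) (gammaH_thQ_lift_le θ'))
    (dQ q) (muQ q) (fun i => tnH θ' (((q * i.val / r : ℕ)) : ℤ))
    (twA_mul_dQ θ')
    (sDH b₀ d₀ hbd θ') (coresDHSys_a hqN b₀ d₀ hbd θ') (((0 : ZMod q)) : OnePoint (ZMod q))
    (sDH_zero b₀ d₀ hbd θ')
    (sDH b₁ d₁ hbd₁ (liftθ (r := r) θ')) (coresDHSys_a hqNr b₁ d₁ hbd₁ (liftθ (r := r) θ'))
    (comp_distinct_of embR_injective _ _ (dQ q) (sDH b₀ d₀ hbd θ')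
      (coresDHSys_a hqN b₀ d₀ hbd θ') (conj_dQ θ')
      (coresDHSys_distinct hqN b₀ d₀ hbd θ') (twSys_distinct θ' hrN))
    (comp_distinct_of_key _ _ (dQ q) (sDH b₁ d₁ hbd₁ (liftθ (r := r) θ'))
      (coresDHSys_a hqNr b₁ d₁ hbd₁ (liftθ (r := r) θ'))
      (twSys_distinct (thQ θ' q) (Dvd.dvd.mul_right hrN q))
      (castSrc_distinct _ _ (gammaH_lift_thQ_le θ')
        (coresDHSys_distinct hqNr b₁ d₁ hbd₁ (liftθ (r := r) θ')))
      (key_beta θ' hqr))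
    rfl rfl (inv_wψ (thQ θ' q) (Dvd.dvd.mul_right hrN q) ψ hψ) (inv_wψ θ' hrN ψ hψ')
    (ψ ((q : ZMod r)⁻¹))
    (fun (i : ZMod r) => by
      show ψ ((q : ZMod r)⁻¹) * ψ (muQ q i) = ψ i
      rw [muQ_eq, ← map_mul, ← mul_assoc, inv_mul_cancel₀ (natCast_q_ne_zero hqr), one_mul])
    φ g

/-- **`β_* ∘ R_ψ = ψ(q)⁻¹ • R_ψ ∘ β_*`** -/
theorem coresDq_Rpsi (ψ : MulChar (ZMod r) R)
    (hψ : ∀ g : GammaH (liftθ (r := r) (thQ θ' q)), ψ (dr r (g : SL(2, ℤ))) ^ 2 = 1)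
    (hψ' : ∀ g : GammaH (liftθ (r := r) θ'), ψ (dr r (g : SL(2, ℤ))) ^ 2 = 1)
    (φ : Additive (GammaH (thQ θ' q)) →+ A) :
    coresDq (liftθ (r := r) θ') (not_dvd_mul_of_ne hqN hqr) A
        (resIncl (gammaH_thQ_lift_le θ') A (Rpsi (thQ θ' q) (Dvd.dvd.mul_right hrN q) ψ hψ φ))
      = ψ ((q : ZMod r)⁻¹) • Rpsi θ' hrN ψ hψ' (coresDq θ' hqN A φ) := by
  refine AddMonoidHom.ext fun g => ?_
  obtain ⟨g, rfl⟩ : ∃ g' : GammaH (liftθ (r := r) θ'), Additive.ofMul g' = g :=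
    ⟨Additive.toMul g, rfl⟩
  rw [AddMonoidHom.smul_apply]
  exact coresDHSys_op_Rpsi_apply θ' hqN hrN hqr _ _ _ _ _ _ ψ hψ hψ' φ g

end Beta

end Fermat.Agent.GB.B10.L2.Degen
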