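/-
GATE-B / B10′ L-route, leaf (L2) (helper15): **the `q`-degeneracy maps commute with the iterated
Betti twist and with its descent to `Γ₀`**.

`q ∤ N · ∏ r` prime, `θ' : (ZMod N)ˣ →* Δ`, `L` a list of twisting data admissible at `(N, θ')`
(helper97, GB/B4/Twist/Chain).  With helper83's `coresq`, `coresDq` (GB/B7/UqSqSys):

* `coresq_chainR`  : `coresq^{top} (chainR^{(N q)} φ) = chainR^{(N)} (coresq φ)`;
* `coresDq_chainR` : `coresDq^{top} (chainR^{(N q)} φ) = chainPsiInv L q • chainR^{(N)} (coresDq φ)`,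
  `chainPsiInv L q = ∏ ψ_i(q⁻¹)`;
* `cores_chainD`, `coresD_chainD` : the same after the descent `coresH` to `Γ₀` (`ChainD.chainD`),
  with `GM.B.cores`, `GM.B.coresD` at the top level `N · ∏ r`;
* `cores_Dmap`, `coresD_Dmap` : the same for helper97's `DPlug.Dmap` (levels up to a propositional
  equality), and the consequences `cores_Dmap_eq_zero`, `coresD_Dmap_eq_zero`:
  `α_*^{Γ_H} φ = 0 → α_* (Dmap φ) = 0`, `β_*^{Γ_H} φ = 0 → β_* (Dmap φ) = 0`.
-/
import Mathlib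
import Fermat.Agent.GB.B10.L2.DegenBeta
import Fermat.Agent.GB.B10.L2.CoresTrans
import Fermat.Agent.GB.B4.Twist.DPlug

set_option autoImplicit false

open scoped MatrixGroups
open CongruenceSubgroup Matrix Matrix.SpecialLinearGroup
open P2MW.S_ModularForm_heckeT_slash_eq_self_of_mem_Gamma0.ModularForm.HeckeSlashInvariance
open Fermat.Agent.S16_helper49 Fermat.Agent.GM.B Fermat.Agent.GM.EisClass
open Fermat.Agent.GB.B3 Fermat.Agent.GB.B3.EisGamma0 Fermat.Agent.GB.B3.GamH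
open Fermat.Agent.GB.B4.Twist Fermat.Agent.GB.B4.Twist.KerSys2 Fermat.Agent.GB.B4.Twist.RPsi
open Fermat.Agent.GB.B4.Twist.Chain Fermat.Agent.GB.B4.Twist.ChainD Fermat.Agent.GB.B4.Twist.DPlug
open Fermat.Agent.GB.B4.Twist.Asm
open Fermat.Agent.GB.B7.UqSq
open Fermat.Agent.GB.B10.L2.Cast Fermat.Agent.GB.B10.L2.Degen

namespace Fermat.Agent.GB.B10.L2.ChainDegen

/-! ### characters inflated along divisibilities -/

section Infl

variable {Δ : Type} [CommGroup Δ]

theorem comp_unitsMap_comp {N M M' : ℕ} (θ' : (ZMod N)ˣ →* Δ) (h₁ : N ∣ M) (h₂ : M ∣ M') :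
    (θ'.comp (ZMod.unitsMap h₁)).comp (ZMod.unitsMap h₂)
      = θ'.comp (ZMod.unitsMap (h₁.trans h₂)) := by
  rw [MonoidHom.comp_assoc, ZMod.unitsMap_comp]

theorem comp_unitsMap_self {M : ℕ} (θ : (ZMod M)ˣ →* Δ) (h : M ∣ M) :
    θ.comp (ZMod.unitsMap h) = θ := by
  have : ZMod.unitsMap h = MonoidHom.id _ := ZMod.unitsMap_self M
  rw [this, MonoidHom.comp_id]

/-- the two spellings of the inflation to level `N q r` -/
theorem thQ_liftθ_eq {N q r : ℕ} (θ' : (ZMod N)ˣ →* Δ) (hM : N * q * r = N * r * q) :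
    thQ (liftθ (r := r) θ') q
      = (liftθ (r := r) (thQ θ' q)).comp (ZMod.unitsMap (dvd_of_eq hM)) := by
  show (θ'.comp (ZMod.unitsMap (Nat.dvd_mul_right N r))).comp
      (ZMod.unitsMap (Nat.dvd_mul_right (N * r) q))
    = ((θ'.comp (ZMod.unitsMap (Nat.dvd_mul_right N q))).comp
      (ZMod.unitsMap (Nat.dvd_mul_right (N * q) r))).comp (ZMod.unitsMap (dvd_of_eq hM))
  rw [comp_unitsMap_comp, comp_unitsMap_comp, comp_unitsMap_comp]

end Infl

/-! ### transport along an equality of levels -/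

section CastLevel

variable {R : Type*} [CommRing R] {Δ : Type} [CommGroup Δ]
  {A : Type*} [AddCommGroup A] [Module R A]

/-- **the chain does not depend on the spelling of the level** -/
theorem chainR_cast {M M' : ℕ} (hM : M = M') (θ : (ZMod M)ˣ →* Δ) (θ₂ : (ZMod M')ˣ →* Δ)
    (hθ : θ₂ = θ.comp (ZMod.unitsMap (dvd_of_eq hM))) (L : List (TwDatum R Δ))
    (h : Adm M θ L) (h₂ : Adm M' θ₂ L) (hle₀ : GammaH θ₂ ≤ GammaH θ)
    (hleL : GammaH (chainθ M' θ₂ L) ≤ GammaH (chainθ M θ L))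
    (X : Additive (GammaH θ) →+ A) :
    resIncl hleL A (chainR M θ L h X) = chainR M' θ₂ L h₂ (resIncl hle₀ A X) := by
  subst hM
  obtain rfl : θ₂ = θ := by rw [hθ, comp_unitsMap_self]
  rw [resIncl_refl, resIncl_refl]

theorem gammaH_chain_cast_le {M M' : ℕ} (hM : M = M') (θ : (ZMod M)ˣ →* Δ)
    (θ₂ : (ZMod M')ˣ →* Δ) (hθ : θ₂ = θ.comp (ZMod.unitsMap (dvd_of_eq hM)))
    (L : List (TwDatum R Δ)) :
    GammaH (chainθ M' θ₂ L) ≤ GammaH (chainθ M θ L) := by
  subst hM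
  obtain rfl : θ₂ = θ := by rw [hθ, comp_unitsMap_self]
  exact le_refl _

variable [Fintype Δ]

/-- **the transfer `Γ_H → Γ₀` does not depend on the spelling of the level** (nor on the
sections) -/
theorem coresH_cast {M M' : ℕ} (hM : M = M') (θ : (ZMod M)ˣ →* Δ) (θ₂ : (ZMod M')ˣ →* Δ)
    (hθ : θ₂ = θ.comp (ZMod.unitsMap (dvd_of_eq hM)))
    (rep : Δ → Gamma0 M) (hrep : ∀ δ, chi θ (rep δ) = δ)
    (rep₂ : Δ → Gamma0 M') (hrep₂ : ∀ δ, chi θ₂ (rep₂ δ) = δ)
    (hle : GammaH θ₂ ≤ GammaH θ) (Y : Additive (GammaH θ) →+ A) :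
    coresH θ₂ rep₂ hrep₂ A (resIncl hle A Y) = castHom hM A (coresH θ rep hrep A Y) := by
  subst hM
  obtain rfl : θ₂ = θ := by rw [hθ, comp_unitsMap_self]
  rw [resIncl_refl, castHom_rfl]
  exact coresK_op_indep (chi θ₂) rep hrep rep₂ hrep₂ embR_injective Y

omit [Fintype Δ] in
theorem exists_rep_cast {M M' : ℕ} (hM : M = M') (θ : (ZMod M)ˣ →* Δ) (θ₂ : (ZMod M')ˣ →* Δ)
    (hθ : θ₂ = θ.comp (ZMod.unitsMap (dvd_of_eq hM)))
    (rep : Δ → Gamma0 M) (hrep : ∀ δ, chi θ (rep δ) = δ) :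
    ∃ rep₂ : Δ → Gamma0 M', ∀ δ, chi θ₂ (rep₂ δ) = δ := by
  subst hM
  obtain rfl : θ₂ = θ := by rw [hθ, comp_unitsMap_self]
  exact ⟨rep, hrep⟩

end CastLevel

/-! ### the degeneracy maps and the chain -/

section ChainQ

variable {R : Type*} [CommRing R] {Δ : Type} [CommGroup Δ]
  {A : Type*} [AddCommGroup A] [Module R A] {q : ℕ}

/-- admissibility goes up along the inflation to level `N q` -/
theorem adm_thQ {N : ℕ} {θ' : (ZMod N)ˣ →* Δ} {L : List (TwDatum R Δ)} (q : ℕ)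
    (h : Adm N θ' L) : Adm (N * q) (thQ θ' q) L := by
  intro e he
  obtain ⟨h1, h2⟩ := h e he
  refine ⟨Dvd.dvd.mul_right h1 _, fun u => ?_⟩
  show e.ψ _ ^ 2 = ((e.ν (θ' (ZMod.unitsMap (Nat.dvd_mul_right N q) u)) : Rˣ) : R)
  rw [← h2]
  congr 2
  rw [ZMod.unitsMap_def, Units.coe_map, MonoidHom.coe_coe]
  have h3 := DFunLike.congr_fun (ZMod.castHom_comp h1 (Nat.dvd_mul_right N q))
    (u : ZMod (N * q))
  rw [RingHom.comp_apply, ZMod.castHom_apply, ZMod.castHom_apply] at h3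
  rw [ZMod.castHom_apply, h3, ZMod.castHom_apply]

/-- `Γ_H` at the top of the two chains -/
theorem gammaH_thQ_chain_le (N : ℕ) (θ' : (ZMod N)ˣ →* Δ) (L : List (TwDatum R Δ)) :
    GammaH (thQ (chainθ N θ' L) q) ≤ GammaH (chainθ (N * q) (thQ θ' q) L) := by
  induction L generalizing N with
  | nil => exact le_refl _
  | cons d L ih =>
    have hM : N * q * d.r = N * d.r * q := Nat.mul_right_comm N q d.r
    exact (ih (N * d.r) (liftθ (r := d.r) θ')).trans
      (gammaH_chain_cast_le hM (liftθ (r := d.r) (thQ θ' q)) (thQ (liftθ (r := d.r) θ') q)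
        (thQ_liftθ_eq θ' hM) L)

variable [Fact q.Prime]

/-- **`α_*` commutes with the iterated twist** -/
theorem coresq_chainR (N : ℕ) (θ' : (ZMod N)ˣ →* Δ) (L : List (TwDatum R Δ))
    (h : Adm N θ' L) (h' : Adm (N * q) (thQ θ' q) L) (hqL : ¬ q ∣ chainLevel N L)
    (hle : GammaH (thQ (chainθ N θ' L) q) ≤ GammaH (chainθ (N * q) (thQ θ' q) L))
    (φ : Additive (GammaH (thQ θ' q)) →+ A) :
    coresq (chainθ N θ' L) hqL A (resIncl hle A (chainR (N * q) (thQ θ' q) L h' φ))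
      = chainR N θ' L h (coresq θ' (not_dvd_base hqL) A φ) := by
  induction L generalizing N with
  | nil =>
    exact congrArg (coresq θ' (not_dvd_base hqL) A)
      (resIncl_refl (Γ := GammaH (thQ θ' q)) hle φ)
  | cons d L ih =>
    have hqNr : ¬ q ∣ N * d.r := fun h1 => hqL (h1.trans (mul_dvd_chainLevel_cons N d L))
    have hqN : ¬ q ∣ N := not_dvd_base hqL
    have hqr : q ≠ d.r := by
      intro h1
      exact hqNr (h1 ▸ Dvd.intro_left N rfl)
    have hM : N * q * d.r = N * d.r * q := Nat.mul_right_comm N q d.r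
    have hθ := thQ_liftθ_eq (r := d.r) θ' hM
    have hleL := gammaH_chain_cast_le hM (liftθ (r := d.r) (thQ θ' q))
      (thQ (liftθ (r := d.r) θ') q) hθ L
    have hleIH : GammaH (thQ (chainθ (N * d.r) (liftθ (r := d.r) θ') L) q)
        ≤ GammaH (chainθ (N * d.r * q) (thQ (liftθ (r := d.r) θ') q) L) :=
      gammaH_thQ_chain_le (N * d.r) (liftθ (r := d.r) θ') L
    have h₂ : Adm (N * d.r * q) (thQ (liftθ (r := d.r) θ') q) L := adm_thQ q (adm_tail h)
    have e1 := chainR_cast hM (liftθ (r := d.r) (thQ θ' q)) (thQ (liftθ (r := d.r) θ') q) hθ L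
      (adm_tail h') h₂ (gammaH_thQ_lift_le θ') hleL
      (RpsiL (thQ θ' q) (adm_head h').1 d.ψ (hψ_of_adm h') φ)
    have e2 := ih (N * d.r) (liftθ (r := d.r) θ') (adm_tail h) h₂ hqL hleIH
      (resIncl (gammaH_thQ_lift_le θ') A (RpsiL (thQ θ' q) (adm_head h').1 d.ψ (hψ_of_adm h') φ))
    have e3 := coresq_Rpsi θ' hqN (adm_head h).1 hqr d.ψ (hψ_of_adm h') (hψ_of_adm h) φ
    show coresq (chainθ (N * d.r) (liftθ (r := d.r) θ') L) hqL A
        (resIncl hleIH A (resIncl hleL A (chainR (N * q * d.r) (liftθ (r := d.r) (thQ θ' q)) L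
          (adm_tail h') (RpsiL (thQ θ' q) (adm_head h').1 d.ψ (hψ_of_adm h') φ))))
      = chainR (N * d.r) (liftθ (r := d.r) θ') L (adm_tail h)
          (RpsiL θ' (adm_head h).1 d.ψ (hψ_of_adm h) (coresq θ' hqN A φ))
    rw [e1, e2]
    congr 1

/-- the product of the characters at `q⁻¹` -/
def chainPsiInv (L : List (TwDatum R Δ)) (q : ℕ) : R :=
  (L.map (fun d => d.ψ ((q : ZMod d.r)⁻¹))).prod

omit [Fact q.Prime] in
@[simp] theorem chainPsiInv_nil : chainPsiInv ([] : List (TwDatum R Δ)) q = 1 := rfl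

omit [Fact q.Prime] in
theorem chainPsiInv_cons (d : TwDatum R Δ) (L : List (TwDatum R Δ)) :
    chainPsiInv (d :: L) q = d.ψ ((q : ZMod d.r)⁻¹) * chainPsiInv L q := by
  unfold chainPsiInv
  rw [List.map_cons, List.prod_cons]

/-- **`β_*` commutes with the iterated twist up to `∏ ψ_i(q)⁻¹`** -/
theorem coresDq_chainR (N : ℕ) (θ' : (ZMod N)ˣ →* Δ) (L : List (TwDatum R Δ))
    (h : Adm N θ' L) (h' : Adm (N * q) (thQ θ' q) L) (hqL : ¬ q ∣ chainLevel N L)
    (hle : GammaH (thQ (chainθ N θ' L) q) ≤ GammaH (chainθ (N * q) (thQ θ' q) L))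
    (φ : Additive (GammaH (thQ θ' q)) →+ A) :
    coresDq (chainθ N θ' L) hqL A (resIncl hle A (chainR (N * q) (thQ θ' q) L h' φ))
      = chainPsiInv L q • chainR N θ' L h (coresDq θ' (not_dvd_base hqL) A φ) := by
  induction L generalizing N with
  | nil =>
    rw [chainPsiInv_nil, one_smul]
    exact congrArg (coresDq θ' (not_dvd_base hqL) A)
      (resIncl_refl (Γ := GammaH (thQ θ' q)) hle φ)
  | cons d L ih =>
    have hqNr : ¬ q ∣ N * d.r := fun h1 => hqL (h1.trans (mul_dvd_chainLevel_cons N d L))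
    have hqN : ¬ q ∣ N := not_dvd_base hqL
    have hqr : q ≠ d.r := by
      intro h1
      exact hqNr (h1 ▸ Dvd.intro_left N rfl)
    have hM : N * q * d.r = N * d.r * q := Nat.mul_right_comm N q d.r
    have hθ := thQ_liftθ_eq (r := d.r) θ' hM
    have hleL := gammaH_chain_cast_le hM (liftθ (r := d.r) (thQ θ' q))
      (thQ (liftθ (r := d.r) θ') q) hθ L
    have hleIH : GammaH (thQ (chainθ (N * d.r) (liftθ (r := d.r) θ') L) q)
        ≤ GammaH (chainθ (N * d.r * q) (thQ (liftθ (r := d.r) θ') q) L) :=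
      gammaH_thQ_chain_le (N * d.r) (liftθ (r := d.r) θ') L
    have h₂ : Adm (N * d.r * q) (thQ (liftθ (r := d.r) θ') q) L := adm_thQ q (adm_tail h)
    have e1 := chainR_cast hM (liftθ (r := d.r) (thQ θ' q)) (thQ (liftθ (r := d.r) θ') q) hθ L
      (adm_tail h') h₂ (gammaH_thQ_lift_le θ') hleL
      (RpsiL (thQ θ' q) (adm_head h').1 d.ψ (hψ_of_adm h') φ)
    have e2 := ih (N * d.r) (liftθ (r := d.r) θ') (adm_tail h) h₂ hqL hleIH
      (resIncl (gammaH_thQ_lift_le θ') A (RpsiL (thQ θ' q) (adm_head h').1 d.ψ (hψ_of_adm h') φ))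
    have e3 : coresDq (liftθ (r := d.r) θ') (not_dvd_base (N := N * d.r) (L := L) hqL) A
        (resIncl (gammaH_thQ_lift_le θ') A
          (RpsiL (thQ θ' q) (adm_head h').1 d.ψ (hψ_of_adm h') φ))
        = d.ψ ((q : ZMod d.r)⁻¹) • RpsiL θ' (adm_head h).1 d.ψ (hψ_of_adm h)
            (coresDq θ' hqN A φ) :=
      coresDq_Rpsi θ' hqN (adm_head h).1 hqr d.ψ (hψ_of_adm h') (hψ_of_adm h) φ
    show coresDq (chainθ (N * d.r) (liftθ (r := d.r) θ') L) hqL A
        (resIncl hleIH A (resIncl hleL A (chainR (N * q * d.r) (liftθ (r := d.r) (thQ θ' q)) L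
          (adm_tail h') (RpsiL (thQ θ' q) (adm_head h').1 d.ψ (hψ_of_adm h') φ))))
      = chainPsiInv (d :: L) q • chainR (N * d.r) (liftθ (r := d.r) θ') L (adm_tail h)
          (RpsiL θ' (adm_head h).1 d.ψ (hψ_of_adm h) (coresDq θ' hqN A φ))
    rw [e1, e2, e3, map_smul, smul_smul, chainPsiInv_cons, mul_comm (chainPsiInv L q)]

end ChainQ

/-! ### the descent to `Γ₀` -/

section Descent

variable {R : Type*} [CommRing R] {Δ : Type} [CommGroup Δ] [Fintype Δ]
  {A : Type*} [AddCommGroup A] [Module R A] {q : ℕ} [Fact q.Prime]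

omit [Fintype Δ] [Fact q.Prime] in
/-- the character at the top of the chain at level `N q` is the inflation of the character at the
top of the chain at level `N` -/
theorem thQ_chainθ_eq (N : ℕ) (θ' : (ZMod N)ˣ →* Δ) (L : List (TwDatum R Δ))
    (hlev : chainLevel (N * q) L = chainLevel N L * q) :
    thQ (chainθ N θ' L) q
      = (chainθ (N * q) (thQ θ' q) L).comp (ZMod.unitsMap (dvd_of_eq hlev)) := by
  rw [chainθ_eq, chainθ_eq]
  show (θ'.comp (ZMod.unitsMap (dvd_chainLevel N L))).comp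
      (ZMod.unitsMap (Nat.dvd_mul_right (chainLevel N L) q))
    = ((θ'.comp (ZMod.unitsMap (Nat.dvd_mul_right N q))).comp
      (ZMod.unitsMap (dvd_chainLevel (N * q) L))).comp (ZMod.unitsMap (dvd_of_eq hlev))
  rw [comp_unitsMap_comp, comp_unitsMap_comp, comp_unitsMap_comp]

omit [Fintype Δ] [Fact q.Prime] in
theorem chainLevel_mul (N : ℕ) (L : List (TwDatum R Δ)) :
    chainLevel (N * q) L = chainLevel N L * q := by
  rw [chainLevel_eq, chainLevel_eq, Nat.mul_right_comm]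

variable (N : ℕ) (θ' : (ZMod N)ˣ →* Δ) (L : List (TwDatum R Δ))
  (h : Adm N θ' L) (h' : Adm (N * q) (thQ θ' q) L) (hqL : ¬ q ∣ chainLevel N L)
  (rep : Δ → Gamma0 (chainLevel N L)) (hrep : ∀ δ, chi (chainθ N θ' L) (rep δ) = δ)
  (rep' : Δ → Gamma0 (chainLevel (N * q) L))
  (hrep' : ∀ δ, chi (chainθ (N * q) (thQ θ' q) L) (rep' δ) = δ)
  (hlev : chainLevel (N * q) L = chainLevel N L * q)

/-- **`α_* ∘ chainD = chainD ∘ α_*^{Γ_H}`** -/
theorem cores_chainD (φ : Additive (GammaH (thQ θ' q)) →+ A) :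
    cores A hqL (castHom hlev A (chainD (N * q) (thQ θ' q) L h' rep' hrep' φ))
      = chainD N θ' L h rep hrep (coresq θ' (not_dvd_base hqL) A φ) := by
  have hle := gammaH_thQ_chain_le (q := q) N θ' L
  have hθ := thQ_chainθ_eq N θ' L hlev
  obtain ⟨repq, hrepq⟩ := exists_rep_cast hlev (chainθ (N * q) (thQ θ' q) L)
    (thQ (chainθ N θ' L) q) hθ rep' hrep'
  rw [chainD_apply, chainD_apply, ← coresq_chainR N θ' L h h' hqL hle φ,
    coresH_coresq (chainθ N θ' L) hqL rep hrep repq hrepq,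
    coresH_cast hlev _ _ hθ rep' hrep' repq hrepq hle]

/-- **`β_* ∘ chainD = ∏ ψ_i(q)⁻¹ • chainD ∘ β_*^{Γ_H}`** -/
theorem coresD_chainD (φ : Additive (GammaH (thQ θ' q)) →+ A) :
    coresD A hqL (castHom hlev A (chainD (N * q) (thQ θ' q) L h' rep' hrep' φ))
      = chainPsiInv L q • chainD N θ' L h rep hrep (coresDq θ' (not_dvd_base hqL) A φ) := by
  have hle := gammaH_thQ_chain_le (q := q) N θ' L
  have hθ := thQ_chainθ_eq N θ' L hlev
  obtain ⟨repq, hrepq⟩ := exists_rep_cast hlev (chainθ (N * q) (thQ θ' q) L)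
    (thQ (chainθ N θ' L) q) hθ rep' hrep'
  have e1 : chainPsiInv L q • chainD N θ' L h rep hrep (coresDq θ' (not_dvd_base hqL) A φ)
      = coresH (chainθ N θ' L) rep hrep A
          (chainPsiInv L q • chainR N θ' L h (coresDq θ' (not_dvd_base hqL) A φ)) := by
    rw [chainD_apply]
    exact (ChainD.op_smul _ _ _).symm
  rw [e1, chainD_apply, ← coresDq_chainR N θ' L h h' hqL hle φ,
    coresH_coresDq (chainθ N θ' L) hqL rep hrep repq hrepq,
    coresH_cast hlev _ _ hθ rep' hrep' repq hrepq hle]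

end Descent

/-! ### the form consumed by the `p`-new part: helper97's `Dmap` -/

section DmapQ

variable {K : Type*} [Field K] {Δ : Type} [CommGroup Δ] [Fintype Δ] {q : ℕ} [Fact q.Prime]
  {N N' : ℕ} (θ' : (ZMod N)ˣ →* Δ) (L : List (TwDatum K Δ))
  (h : Adm N θ' L) (h' : Adm (N * q) (thQ θ' q) L) (hqN : ¬ q ∣ N) (hqN' : ¬ q ∣ N')
  (rep : Δ → Gamma0 (chainLevel N L)) (hrep : ∀ δ, chi (chainθ N θ' L) (rep δ) = δ)
  (rep' : Δ → Gamma0 (chainLevel (N * q) L))
  (hrep' : ∀ δ, chi (chainθ (N * q) (thQ θ' q) L) (rep' δ) = δ)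
  (hlevN : chainLevel N L = N') (hlev : chainLevel (N * q) L = N' * q)

/-- **`α_* ∘ Dmap^{(N q)} = Dmap^{(N)} ∘ α_*^{Γ_H}`** -/
theorem cores_Dmap (φ : Additive (GammaH (thQ θ' q)) →+ K) :
    cores K hqN' (Dmap (thQ θ' q) L h' rep' hrep' hlev φ)
      = Dmap θ' L h rep hrep hlevN (coresq θ' hqN K φ) := by
  subst hlevN
  rw [Dmap_apply, Dmap_apply, castHom_rfl]
  exact cores_chainD N θ' L h h' hqN' rep hrep rep' hrep' hlev φ

/-- **`β_* ∘ Dmap^{(N q)} = ∏ ψ_i(q)⁻¹ • Dmap^{(N)} ∘ β_*^{Γ_H}`** -/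
theorem coresD_Dmap (φ : Additive (GammaH (thQ θ' q)) →+ K) :
    coresD K hqN' (Dmap (thQ θ' q) L h' rep' hrep' hlev φ)
      = chainPsiInv L q • Dmap θ' L h rep hrep hlevN (coresDq θ' hqN K φ) := by
  subst hlevN
  rw [Dmap_apply, Dmap_apply, castHom_rfl]
  exact coresD_chainD N θ' L h h' hqN' rep hrep rep' hrep' hlev φ

include h hqN rep hrep hlevN in
/-- **`α_*^{Γ_H} φ = 0 → α_* (Dmap φ) = 0`** -/
theorem cores_Dmap_eq_zero (φ : Additive (GammaH (thQ θ' q)) →+ K)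
    (h0 : coresq θ' hqN K φ = 0) :
    cores K hqN' (Dmap (thQ θ' q) L h' rep' hrep' hlev φ) = 0 := by
  rw [cores_Dmap θ' L h h' hqN hqN' rep hrep rep' hrep' hlevN hlev φ, h0, map_zero]

include h hqN rep hrep hlevN in
/-- **`β_*^{Γ_H} φ = 0 → β_* (Dmap φ) = 0`** -/
theorem coresD_Dmap_eq_zero (φ : Additive (GammaH (thQ θ' q)) →+ K)
    (h0 : coresDq θ' hqN K φ = 0) :
    coresD K hqN' (Dmap (thQ θ' q) L h' rep' hrep' hlev φ) = 0 := by
  rw [coresD_Dmap θ' L h h' hqN hqN' rep hrep rep' hrep' hlevN hlev φ, h0, map_zero, smul_zero]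

end DmapQ

/-! ### the same with the data at level `N` produced from the data at level `N q` -/

section Minimal

variable {R : Type*} [CommRing R] {Δ : Type} [CommGroup Δ] {q : ℕ}

theorem chi_comp_unitsMap {N M : ℕ} (hNM : N ∣ M) (θ' : (ZMod N)ˣ →* Δ) (g : Gamma0 M) :
    chi (θ'.comp (ZMod.unitsMap hNM)) g
      = chi θ' ⟨(g : SL(2, ℤ)), gamma0_le_of_dvd' hNM g.2⟩ := by
  rw [chi_apply, chi_apply, MonoidHom.comp_apply]
  congr 1
  exact unitsMap_dUnits_eq hNM (g : SL(2, ℤ)) g.2 (gamma0_le_of_dvd' hNM g.2)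

/-- admissibility goes down along the inflation, away from `q` -/
theorem adm_of_thQ {N : ℕ} [NeZero N] [Fact q.Prime] {θ' : (ZMod N)ˣ →* Δ}
    {L : List (TwDatum R Δ)} (h' : Adm (N * q) (thQ θ' q) L) (hq : ∀ d ∈ L, d.r ≠ q) :
    Adm N θ' L := by
  intro e he
  obtain ⟨h1, h2⟩ := h' e he
  have hrN : e.r ∣ N := by
    rcases (Nat.Prime.dvd_mul (Fact.out : e.r.Prime)).mp h1 with h3 | h3
    · exact h3
    · exact absurd ((Nat.prime_dvd_prime_iff_eq (Fact.out : e.r.Prime)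
        (Fact.out : q.Prime)).mp h3) (hq e he)
  refine ⟨hrN, fun u => ?_⟩
  have : NeZero (N * q) := ⟨Nat.mul_ne_zero (NeZero.ne N) (Fact.out : q.Prime).ne_zero⟩
  obtain ⟨v, rfl⟩ := ZMod.unitsMap_surjective (Nat.dvd_mul_right N q) u
  have h3 := h2 v
  rw [show (thQ θ' q) v = θ' (ZMod.unitsMap (Nat.dvd_mul_right N q) v) from rfl] at h3
  rw [← h3]
  congr 2
  rw [ZMod.unitsMap_def, Units.coe_map, MonoidHom.coe_coe]
  have h4 := DFunLike.congr_fun (ZMod.castHom_comp hrN (Nat.dvd_mul_right N q))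
    (v : ZMod (N * q))
  rw [RingHom.comp_apply, ZMod.castHom_apply, ZMod.castHom_apply] at h4
  rw [ZMod.castHom_apply, h4, ZMod.castHom_apply]

theorem dvd_chainLevel_of_mem (N : ℕ) {L : List (TwDatum R Δ)} {d : TwDatum R Δ} (hd : d ∈ L) :
    d.r ∣ chainLevel N L := by
  rw [chainLevel_eq]
  exact Dvd.dvd.mul_left (List.dvd_prod (List.mem_map_of_mem hd)) N

/-- a section at the top of the chain at level `N` from a section at level `N q` -/
theorem exists_rep_of_thQ (N : ℕ) (θ' : (ZMod N)ˣ →* Δ) (L : List (TwDatum R Δ))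
    (rep' : Δ → Gamma0 (chainLevel (N * q) L))
    (hrep' : ∀ δ, chi (chainθ (N * q) (thQ θ' q) L) (rep' δ) = δ) :
    ∃ rep : Δ → Gamma0 (chainLevel N L), ∀ δ, chi (chainθ N θ' L) (rep δ) = δ := by
  have hdvd : chainLevel N L ∣ chainLevel (N * q) L := by
    rw [chainLevel_mul]
    exact Dvd.intro _ rfl
  refine ⟨fun δ => ⟨((rep' δ : Gamma0 (chainLevel (N * q) L)) : SL(2, ℤ)),
    gamma0_le_of_dvd' hdvd (rep' δ).2⟩, fun δ => ?_⟩
  have h1 := hrep' δ
  rw [chainθ_eq] at h1 ⊢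
  have h2 : (thQ θ' q).comp (ZMod.unitsMap (dvd_chainLevel (N * q) L))
      = θ'.comp (ZMod.unitsMap ((Nat.dvd_mul_right N q).trans (dvd_chainLevel (N * q) L))) :=
    comp_unitsMap_comp θ' _ _
  rw [h2, chi_comp_unitsMap] at h1
  rw [chi_comp_unitsMap]
  exact h1

end Minimal

section DmapMin

variable {K : Type*} [Field K] {Δ : Type} [CommGroup Δ] [Fintype Δ] {q : ℕ} [Fact q.Prime]
  {N N' : ℕ} [NeZero N] (θ' : (ZMod N)ˣ →* Δ) (L : List (TwDatum K Δ))
  (h' : Adm (N * q) (thQ θ' q) L) (hqN : ¬ q ∣ N) (hqN' : ¬ q ∣ N')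
  (rep' : Δ → Gamma0 (chainLevel (N * q) L))
  (hrep' : ∀ δ, chi (chainθ (N * q) (thQ θ' q) L) (rep' δ) = δ)
  (hlev : chainLevel (N * q) L = N' * q)

include hlev in
omit [Fintype Δ] [NeZero N] in
theorem chainLevel_eq_of_mul : chainLevel N L = N' := by
  have h1 : chainLevel N L * q = N' * q := by rw [← chainLevel_mul]; exact hlev
  exact Nat.eq_of_mul_eq_mul_right (Fact.out : q.Prime).pos h1

include hqN' hlev in
omit [Fintype Δ] [NeZero N] in
theorem ne_of_mem_of_level : ∀ d ∈ L, d.r ≠ q := by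
  intro d hd h1
  have h2 := dvd_chainLevel_of_mem N hd
  rw [chainLevel_eq_of_mul L hlev, h1] at h2
  exact hqN' h2

/-- **`α_*^{Γ_H} φ = 0 → α_* (Dmap φ) = 0`**, only with the data at level `N q` -/
theorem cores_Dmap_eq_zero' (φ : Additive (GammaH (thQ θ' q)) →+ K)
    (h0 : coresq θ' hqN K φ = 0) :
    cores K hqN' (Dmap (thQ θ' q) L h' rep' hrep' hlev φ) = 0 := by
  obtain ⟨rep, hrep⟩ := exists_rep_of_thQ N θ' L rep' hrep'
  exact cores_Dmap_eq_zero θ' L (adm_of_thQ h' (ne_of_mem_of_level L hqN' hlev)) h' hqN hqN'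
    rep hrep rep' hrep' (chainLevel_eq_of_mul L hlev) hlev φ h0

/-- **`β_*^{Γ_H} φ = 0 → β_* (Dmap φ) = 0`**, only with the data at level `N q` -/
theorem coresD_Dmap_eq_zero' (φ : Additive (GammaH (thQ θ' q)) →+ K)
    (h0 : coresDq θ' hqN K φ = 0) :
    coresD K hqN' (Dmap (thQ θ' q) L h' rep' hrep' hlev φ) = 0 := by
  obtain ⟨rep, hrep⟩ := exists_rep_of_thQ N θ' L rep' hrep'
  exact coresD_Dmap_eq_zero θ' L (adm_of_thQ h' (ne_of_mem_of_level L hqN' hlev)) h' hqN hqN'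
    rep hrep rep' hrep' (chainLevel_eq_of_mul L hlev) hlev φ h0

end DmapMin

end Fermat.Agent.GB.B10.L2.ChainDegen
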