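/-
GATE-B / GB-PNEW, leaf (HC), arrows 3–6 (helper15): **the `q`-degeneracy maps commute with the
`ε`-projectors of the diamond representation**, and the resulting vanishing of `α_*`, `β_*` on every
component `Dmap_ε (e_ε φ)` of helper44's intertwiner.

`e_ε = EpsDecomp.proj (DiaRep.diaRep θ hθ) ε = DiaRep.comp θ hθ ε` (GB/B4/Twist/{EpsDecomp,DiaRep}),
`Dmap = castHom ∘ chainD` (helper97 DPlug), `coresq`/`coresDq` (helper83 UqSqSys),
`coresq_diaH`/`coresDq_diaH` (helper97 UqEquiv).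

* `coresq_comp`, `coresDq_comp` : `coresq (e_ε^{(N q)} φ) = e_ε^{(N)} (coresq φ)`;
* `cores_Dmap_comp_eq_zero`, `coresD_Dmap_comp_eq_zero` :
  `coresq φ = 0 → cores (Dmap_ε (e_ε φ)) = 0` (and the `δ`-twisted twin): the binder `hcores` of
  helper44's (ANN) for every `φ` killed by `coresq`, `coresDq` at level `Γ_H`.
-/
import Mathlib
import Fermat.Agent.GB.B10.L2.ChainDegen
import Fermat.Agent.GB.B7.UqEquiv
import Fermat.Agent.GB.B4.Twist.DiaRep

set_option autoImplicit false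

open scoped MatrixGroups
open CongruenceSubgroup Matrix Matrix.SpecialLinearGroup
open P2MW.S_ModularForm_heckeT_slash_eq_self_of_mem_Gamma0.ModularForm.HeckeSlashInvariance
open Fermat.Agent.S16_helper49 Fermat.Agent.GM.B Fermat.Agent.GM.EisClass
open Fermat.Agent.GB.B3 Fermat.Agent.GB.B3.EisGamma0 Fermat.Agent.GB.B3.GamH
open Fermat.Agent.GB.B4.Twist Fermat.Agent.GB.B4.Twist.RPsi
open Fermat.Agent.GB.B4.Twist.Chain Fermat.Agent.GB.B4.Twist.ChainD Fermat.Agent.GB.B4.Twist.DPlug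
open Fermat.Agent.GB.B4.Twist.EpsDecomp
open Fermat.Agent.GB.B7.UqSq Fermat.Agent.GB.B7.UqEquiv
open Fermat.Agent.GB.B10.L2.ChainDegen

namespace Fermat.Agent.GB.B10.L2.ProjDegen

section Proj

variable {N q : ℕ} [NeZero N] [NeZero (N * q)] [Fact q.Prime] {Δ : Type} [CommGroup Δ] [Fintype Δ]
  (θ' : (ZMod N)ˣ →* Δ) (hθ' : Function.Surjective θ')
  (hθq : Function.Surjective (thQ θ' q)) (hqN : ¬ q ∣ N)
  {K : Type*} [Field K] {A : Type*} [AddCommGroup A] [Module K A]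

omit [Fact q.Prime] in
/-- a degeneracy-type operator intertwining the diamond operators commutes with the projectors -/
theorem map_comp_of_diaH
    (D : (Additive (GammaH (thQ θ' q)) →+ A) →+ (Additive (GammaH θ') →+ A))
    (hsmul : ∀ (c : K) ν, D (c • ν) = c • D ν)
    (hdia : ∀ (d : Gamma0 (N * q)) (d' : Gamma0 N), chi (thQ θ' q) d = chi θ' d' →
      ∀ ν, D (diaH (thQ θ' q) A d ν) = diaH θ' A d' (D ν))
    (ε : Δ →* Kˣ) (φ : Additive (GammaH (thQ θ' q)) →+ A) :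
    D (DiaRep.comp (thQ θ' q) hθq ε φ) = DiaRep.comp θ' hθ' ε (D φ) := by
  unfold DiaRep.comp
  rw [proj_apply, proj_apply, hsmul, map_sum]
  congr 1
  refine Finset.sum_congr rfl fun δ _ => ?_
  rw [hsmul]
  congr 1
  exact hdia (DiaRep.sec (thQ θ' q) hθq δ) (DiaRep.sec θ' hθ' δ)
    (by rw [DiaRep.chi_sec, DiaRep.chi_sec]) φ

/-- **`α_*` commutes with the `ε`-projectors** -/
theorem coresq_comp (ε : Δ →* Kˣ) (φ : Additive (GammaH (thQ θ' q)) →+ A) :
    coresq θ' hqN A (DiaRep.comp (thQ θ' q) hθq ε φ)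
      = DiaRep.comp θ' hθ' ε (coresq θ' hqN A φ) :=
  map_comp_of_diaH θ' hθ' hθq (coresq θ' hqN A) (fun c ν => ChainD.op_smul _ c ν)
    (fun d d' hd ν => coresq_diaH θ' hqN d d' hd ν) ε φ

/-- **`β_*` commutes with the `ε`-projectors** -/
theorem coresDq_comp (ε : Δ →* Kˣ) (φ : Additive (GammaH (thQ θ' q)) →+ A) :
    coresDq θ' hqN A (DiaRep.comp (thQ θ' q) hθq ε φ)
      = DiaRep.comp θ' hθ' ε (coresDq θ' hqN A φ) :=
  map_comp_of_diaH θ' hθ' hθq (coresDq θ' hqN A) (fun c ν => ChainD.op_smul _ c ν)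
    (fun d d' hd ν => coresDq_diaH θ' hqN d d' hd ν) ε φ

omit [NeZero N] [NeZero (N * q)] [Fact q.Prime] [Fintype Δ] in
include hθq in
theorem surjective_of_thQ : Function.Surjective θ' :=
  Function.Surjective.of_comp (g := ZMod.unitsMap (Nat.dvd_mul_right N q)) hθq

end Proj

/-! ### the components of the intertwiner -/

section HC

variable {N q N' : ℕ} [NeZero N] [NeZero (N * q)] [Fact q.Prime] {Δ : Type} [CommGroup Δ]
  [Fintype Δ] (θ' : (ZMod N)ˣ →* Δ) (hθq : Function.Surjective (thQ θ' q))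
  {K : Type*} [Field K] (L : List (TwDatum K Δ))
  (h' : Adm (N * q) (thQ θ' q) L) (hqN : ¬ q ∣ N) (hqN' : ¬ q ∣ N')
  (rep' : Δ → Gamma0 (chainLevel (N * q) L))
  (hrep' : ∀ δ, chi (chainθ (N * q) (thQ θ' q) L) (rep' δ) = δ)
  (hlev : chainLevel (N * q) L = N' * q)

/-- **`α_*^{Γ_H} φ = 0 → α_* (Dmap (e_ε φ)) = 0`** -/
theorem cores_Dmap_comp_eq_zero (ε : Δ →* Kˣ) (φ : Additive (GammaH (thQ θ' q)) →+ K)
    (h0 : coresq θ' hqN K φ = 0) :
    cores K hqN' (Dmap (thQ θ' q) L h' rep' hrep' hlev (DiaRep.comp (thQ θ' q) hθq ε φ)) = 0 := by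
  refine cores_Dmap_eq_zero' θ' L h' hqN hqN' rep' hrep' hlev _ ?_
  rw [coresq_comp θ' (surjective_of_thQ θ' hθq) hθq hqN ε φ, h0]
  unfold DiaRep.comp
  rw [map_zero]

/-- **`β_*^{Γ_H} φ = 0 → β_* (Dmap (e_ε φ)) = 0`** -/
theorem coresD_Dmap_comp_eq_zero (ε : Δ →* Kˣ) (φ : Additive (GammaH (thQ θ' q)) →+ K)
    (h0 : coresDq θ' hqN K φ = 0) :
    coresD K hqN' (Dmap (thQ θ' q) L h' rep' hrep' hlev (DiaRep.comp (thQ θ' q) hθq ε φ)) = 0 := by
  refine coresD_Dmap_eq_zero' θ' L h' hqN hqN' rep' hrep' hlev _ ?_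
  rw [coresDq_comp θ' (surjective_of_thQ θ' hθq) hθq hqN ε φ, h0]
  unfold DiaRep.comp
  rw [map_zero]

end HC

end Fermat.Agent.GB.B10.L2.ProjDegen
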