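/-
GATE-B / GB-PNEW, seam (N3) → (HC) (helper32): **the `𝔪`-primary part of `Hom(Γ₀(N), O)` vanishes
when the `ker lamBase`-primary part at the base level `M₀` does**, for `N = M₀ ∏_{s ∈ Q} pr s` with
Taylor–Wiles conditions at the symbols of `Q`.

This is the `j`-free first half of helper95's `PlugZero.isLoc_eq_zero_of_base` (B8 → B3 seam
`LevelIter.exists_baseEquiv`: the two primary parts are linearly equivalent).  Its conclusion is the
binder `hbase` of helper15's `HCores.hcores_of_tower` / helper95's `LocTransportInstD.new_of_tower`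
(with `Sy := restrict SyBig hrN`), its hypothesis is the conclusion of gap (N3)
(`¬ W.IsResiduallyModularOfLevel p M₀ ⟹` the Betti `𝔪`-part at level `M₀` vanishes).
-/
import Mathlib
import Fermat.Agent.GB.B3.PlugD

set_option autoImplicit false
set_option linter.unusedSectionVars false
set_option linter.style.haveILetI false

open scoped MatrixGroups
open CongruenceSubgroup

namespace Fermat.Agent.GB.B10.L2.HBaseTower

open MvPolynomial
open Fermat.Agent.GB.B3 Fermat.Agent.GB.B3.TWLevel Fermat.Agent.GB.B3.RealLevel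
  Fermat.Agent.GB.B3.HeckeActH Fermat.Agent.GB.B3.TWChars Fermat.Agent.GB.B3.FinalTW
  Fermat.Agent.GB.B8.LevelIter Fermat.Agent.GB.B8.LevelGen

variable {N : ℕ} (Sy : Symbols N)
variable {O : Type} [CommRing O] [IsDomain O] [IsPrincipalIdealRing O] [IsLocalRing O]
  [IsAdicComplete (IsLocalRing.maximalIdeal O) O]
variable {κ : Type} [Field κ] [Algebra O κ]
variable [DecidableEq Sy.ι₁] [DecidableEq Sy.ι₂]

/-- **`Hom(Γ₀(M₀), O)_{ker lamBase} = 0 ⟹ Hom(Γ₀(N), O)_𝔪 = 0`** for `N = M₀ ∏_{s ∈ Q} pr s`,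
`𝔪 = ker lamTop`, Taylor–Wiles conditions on `Q`. -/
theorem hbase_of_base (hℓ : Function.Injective Sy.ℓ) (hr : Function.Injective Sy.r)
    (hsurj : Function.Surjective (algebraMap O κ)) (M : ℕ) [NeZero M]
    (lamBase lamTop : Sy.𝕋 O →ₐ[O] κ) (α β : Sy.ι₁ ⊕ Sy.ι₂ → O) (Q : Finset (Sy.ι₁ ⊕ Sy.ι₂))
    (hN : N = M * ∏ s ∈ Q, prSy Sy s) (hQM : ∀ s ∈ Q, ¬ prSy Sy s ∣ M)
    (hTW : ∀ s ∈ Q, TWCond (prSy Sy) lamBase lamTop α β s)
    (haway : ∀ s, s ∉ Q → lamTop (X s) = lamBase (X s))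
    (𝔪 : Ideal (Sy.𝕋 O)) (h𝔪 : 𝔪 = RingHom.ker (lamTop : Sy.𝕋 O →+* κ))
    (hbase : ∀ y : Additive (Gamma0 M) →+ O,
      IsLoc (actN O (prSy Sy) (prSy_prime Sy) M) (RingHom.ker (lamBase : Sy.𝕋 O →+* κ)) y → y = 0) :
    ∀ y : Additive (Gamma0 N) →+ O, IsLoc (HeckeActH.act0 Sy O) 𝔪 y → y = 0 := by
  subst h𝔪
  obtain ⟨e, -⟩ := exists_baseEquiv Sy hℓ hr hsurj M lamBase lamTop α β Q hN hQM hTW haway
  intro y hy
  have h0 : e.symm ⟨y, hy⟩ = 0 := Subtype.ext (hbase _ (e.symm ⟨y, hy⟩).2)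
  have h1 : (⟨y, hy⟩ : Base.locSub (act0 Sy O) (RingHom.ker (lamTop : Sy.𝕋 O →+* κ))) = 0 := by
    have := congrArg e h0
    rwa [LinearEquiv.apply_symm_apply, map_zero] at this
  exact congrArg Subtype.val h1

end Fermat.Agent.GB.B10.L2.HBaseTower
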